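import Fermat.Prelude.Def_ModularCurve_HeckeModule

/-!
# Correspondences commute with semilinear automorphisms

In particular the Hecke operators on `J₀(N)(ℚ̄)` commute with the action of the absolute Galois
group of the rationals.
-/

set_option autoImplicit false

noncomputable section

namespace FLTA.GaloisReps

open AlgebraicCurve AlgebraicCurve.SemilinearAut
open scoped Pointwise

section Along

variable {K F F' : Type*} [Field K] [Field F] [Field F'] [Algebra K F] [Algebra K F']
variable (φ : F →ₐ[K] F') (hφ : φ.toRingHom.IsIntegral)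
variable {g : SemilinearAut K F} {g' : SemilinearAut K F'}
variable (hint : ∀ x : F, g' • φ x = φ (g • x))

include hint in
theorem intertwines_inv (x : F) : g'⁻¹ • φ x = φ (g⁻¹ • x) := by
  have hx := hint (g⁻¹ • x)
  rw [smul_inv_smul] at hx
  rw [← hx, inv_smul_smul]

include hint in
theorem restrictAlong_smul (w : Place K F') :
    (g' • w).restrictAlong φ hφ = g • w.restrictAlong φ hφ := by
  letI := algebraAlong φ
  haveI := isScalarTower_along φ
  haveI := isIntegral_along φ hφ
  apply Place.ext
  ext x
  show φ x ∈ (g' • w).toValuationSubring ↔ x ∈ g • (w.restrict F).toValuationSubring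
  rw [smul_toValuationSubring, ValuationSubring.mem_pointwise_smul_iff_inv_smul_mem,
    ValuationSubring.mem_pointwise_smul_iff_inv_smul_mem, intertwines_inv φ hint]
  exact Iff.rfl

include hint in
theorem ramificationIndexAlong_smul (w : Place K F') :
    (g' • w).ramificationIndexAlong φ = w.ramificationIndexAlong φ := by
  letI := algebraAlong φ
  show Place.ramificationIndex (F := F) (g' • w) = Place.ramificationIndex (F := F) w
  unfold Place.ramificationIndex
  congr 1
  ext n
  have key : ∀ f : F, (g' • w).ord (φ (g • f)) = w.ord (φ f) := fun f => by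
    rw [← hint, ord_smul]
  constructor
  · rintro ⟨hn, f, hf, h⟩
    refine ⟨hn, g⁻¹ • f, (smul_ne_zero_iff_ne _).mpr hf, ?_⟩
    have := key (g⁻¹ • f)
    rw [smul_inv_smul] at this
    exact this.symm.trans h
  · rintro ⟨hn, f, hf, h⟩
    exact ⟨hn, g • f, (smul_ne_zero_iff_ne _).mpr hf, (key f).trans h⟩

section Restrict

variable [Algebra F F'] [IsScalarTower K F F'] [Algebra.IsIntegral F F']
variable (halg : ∀ x : F, g' • algebraMap F F' x = algebraMap F F' (g • x)) (w : Place K F')

/-- The action on the valuation ring of the restricted place. -/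
def restrictSmulEquiv :
    (w.restrict F).toValuationSubring ≃+* ((g' • w).restrict F).toValuationSubring where
  toFun x := ⟨g • (x : F), by
    rw [Place.mem_restrict_iff, smul_toValuationSubring, ← halg]
    exact ValuationSubring.smul_mem_pointwise_smul g' _ _ x.2⟩
  invFun y := ⟨g⁻¹ • (y : F), by
    have h := y.2
    rw [Place.mem_restrict_iff, smul_toValuationSubring,
      ValuationSubring.mem_pointwise_smul_iff_inv_smul_mem] at h
    have e := halg (g⁻¹ • (y : F))
    rw [smul_inv_smul] at e
    rw [← e, inv_smul_smul] at h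
    exact h⟩
  left_inv x := Subtype.ext (inv_smul_smul g (x : F))
  right_inv y := Subtype.ext (smul_inv_smul g (y : F))
  map_mul' x y := Subtype.ext (smul_mul' g (x : F) (y : F))
  map_add' x y := Subtype.ext (smul_add g (x : F) (y : F))

include halg in
theorem inertiaDeg_smul : (g' • w).inertiaDeg F = w.inertiaDeg F := by
  symm
  refine Algebra.finrank_eq_of_equiv_equiv
    (IsLocalRing.ResidueField.mapEquiv (restrictSmulEquiv halg w))
    (smulResidueRingEquiv g' w) ?_
  refine RingHom.ext fun c => ?_
  obtain ⟨a, rfl⟩ := IsLocalRing.residue_surjective c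
  show Place.restrictResidueMap F (g' • w)
      (IsLocalRing.ResidueField.mapEquiv (restrictSmulEquiv halg w) (IsLocalRing.residue _ a)) =
    smulResidueRingEquiv g' w (Place.restrictResidueMap F w (IsLocalRing.residue _ a))
  rw [IsLocalRing.ResidueField.mapEquiv_apply, IsLocalRing.ResidueField.map_residue,
    Place.restrictResidueMap_residue, Place.restrictResidueMap_residue]
  show _ = IsLocalRing.ResidueField.mapEquiv _ (IsLocalRing.residue _ _)
  rw [IsLocalRing.ResidueField.mapEquiv_apply, IsLocalRing.ResidueField.map_residue]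
  refine congrArg _ (Subtype.ext ?_)
  exact (halg (a : F)).symm

end Restrict

include hint in
theorem inertiaDegAlong_smul (w : Place K F') :
    (g' • w).inertiaDegAlong φ hφ = w.inertiaDegAlong φ hφ := by
  letI := algebraAlong φ
  haveI := isScalarTower_along φ
  haveI := isIntegral_along φ hφ
  exact inertiaDeg_smul (F := F) hint w

include hint in
theorem pushforwardAlong_smul (D : Divisor K F') :
    Divisor.pushforwardAlong φ hφ (g' • D) = g • Divisor.pushforwardAlong φ hφ D := by
  induction D using Finsupp.induction with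
  | zero => rw [smul_zero, map_zero, smul_zero]
  | single_add w n D _ _ ih =>
    rw [smul_add, map_add, map_add, smul_add, ih, smul_single, Divisor.pushforwardAlong_single,
      Divisor.pushforwardAlong_single, smul_single, restrictAlong_smul φ hφ hint,
      inertiaDegAlong_smul φ hφ hint]

include hint in
theorem pullbackAlong_smul [HasPrincipalDivisors K F'] (D : Divisor K F) :
    Divisor.pullbackAlong φ hφ (g • D) = g' • Divisor.pullbackAlong φ hφ D := by
  ext w
  rw [divisor_smul_apply, Divisor.pullbackAlong_apply, Divisor.pullbackAlong_apply]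
  obtain ⟨v, rfl⟩ : ∃ v, g' • v = w := ⟨g'⁻¹ • w, smul_inv_smul g' w⟩
  rw [inv_smul_smul, ramificationIndexAlong_smul φ hint, restrictAlong_smul φ hφ hint,
    divisor_smul_apply_smul]

end Along

section Modular

open ModularCurve

variable (N ℓ : ℕ) [NeZero N] [NeZero ℓ]

local notation "Qbar" => AlgebraicClosure ℚ

theorem heckeAlphaBar_galois (σ : Qbar ≃ₐ[ℚ] Qbar) (x : modularFunctionFieldBar N) :
    arithmeticGalois (modularFunctionFieldFull (N * ℓ)) σ • heckeAlphaBar Qbar N ℓ x =
      heckeAlphaBar Qbar N ℓ (arithmeticGalois (modularFunctionFieldFull N) σ • x) :=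
  Subtype.ext (by
    rw [coe_arithmeticGalois_smul, coe_heckeAlphaBar, coe_heckeAlphaBar,
      coe_arithmeticGalois_smul])

theorem coeffMap_qExpand_comm {R S : Type*} [CommRing R] [CommRing S] (f : R →+* S) (n : ℕ)
    [NeZero n] (x : LaurentSeries R) :
    coeffMap f (qExpand R n x) = qExpand S n (coeffMap f x) := by
  ext k
  by_cases hk : (n : ℤ) ∣ k
  · obtain ⟨m, rfl⟩ := hk
    rw [coeffMap_coeff, qExpand_coeff_mul, qExpand_coeff_mul, coeffMap_coeff]
  · rw [coeffMap_coeff, qExpand_coeff_of_not_dvd n _ hk, qExpand_coeff_of_not_dvd n _ hk,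
      map_zero]

theorem heckeBetaBar_galois (σ : Qbar ≃ₐ[ℚ] Qbar) (x : modularFunctionFieldBar N) :
    arithmeticGalois (modularFunctionFieldFull (N * ℓ)) σ • heckeBetaBar Qbar N ℓ x =
      heckeBetaBar Qbar N ℓ (arithmeticGalois (modularFunctionFieldFull N) σ • x) :=
  Subtype.ext (by
    rw [coe_arithmeticGalois_smul, coe_heckeBetaBar, coe_heckeBetaBar,
      coe_arithmeticGalois_smul, coeffMap_qExpand_comm])

theorem heckeOperatorAlong_galois (σ : Qbar ≃ₐ[ℚ] Qbar) (x : JZero N) :
    σ • heckeOperatorAlong Qbar N ℓ x = heckeOperatorAlong Qbar N ℓ (σ • x) := by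
  by_cases h : HeckeInputsAlong Qbar N ℓ
  · obtain ⟨hα, hβ, hP, hfin, hFI, hN⟩ := h
    haveI := hP
    rw [heckeOperatorAlong_eq hα hβ hFI hfin hN]
    obtain ⟨D, rfl⟩ := Pic0.mk_surjective x
    refine congrArg Pic0.mk (Subtype.ext ?_)
    show arithmeticGalois (modularFunctionFieldFull N) σ •
        Divisor.pushforwardAlong (heckeAlphaBar Qbar N ℓ) hα
          (Divisor.pullbackAlong (heckeBetaBar Qbar N ℓ) hβ D.1) =
      Divisor.pushforwardAlong (heckeAlphaBar Qbar N ℓ) hα
        (Divisor.pullbackAlong (heckeBetaBar Qbar N ℓ) hβ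
          (arithmeticGalois (modularFunctionFieldFull N) σ • D.1))
    rw [pullbackAlong_smul (heckeBetaBar Qbar N ℓ) hβ (heckeBetaBar_galois N ℓ σ),
      pushforwardAlong_smul (heckeAlphaBar Qbar N ℓ) hα (heckeAlphaBar_galois N ℓ σ)]
  · simp [heckeOperatorAlong_of_not h]

/-- Galois commutes with the Hecke operators on `J₀(N)(ℚ̄)`. -/
theorem heckeOperatorBar_galois (ℓ : Nat.Primes) (σ : Qbar ≃ₐ[ℚ] Qbar) (x : JZero N) :
    σ • heckeOperatorBar N ℓ x = heckeOperatorBar N ℓ (σ • x) := by
  haveI : NeZero (ℓ : ℕ) := ⟨ℓ.2.ne_zero⟩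
  rw [heckeOperatorBar_apply, heckeOperatorBar_apply]
  exact heckeOperatorAlong_galois N ℓ σ x

end Modular

end FLTA.GaloisReps
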