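import Fermat.Prelude.Def_ModularCurve_ArithmeticGalois
import Mathlib.NumberTheory.NumberField.Basic

/-!
# Places, divisors and divisor classes of `X₀(N)` over `ℚ̄` are fixed by open subgroups
-/

set_option autoImplicit false

noncomputable section

namespace FLTA.GaloisReps

open AlgebraicCurve AlgebraicCurve.SemilinearAut ModularCurve
open scoped Pointwise IntermediateField

local notation "Qbar" => AlgebraicClosure ℚ
local notation "Γℚ" => AlgebraicClosure ℚ ≃ₐ[ℚ] AlgebraicClosure ℚ

/-- Fixed by all automorphisms fixing some finite extension of the rationals. -/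
def HasOpenStab (P : Γℚ → Prop) : Prop :=
  ∃ L : IntermediateField ℚ Qbar, FiniteDimensional ℚ L ∧ ∀ σ : Γℚ, (∀ x ∈ L, σ x = x) → P σ

theorem HasOpenStab.mono {P Q : Γℚ → Prop} (h : HasOpenStab P) (hPQ : ∀ σ, P σ → Q σ) :
    HasOpenStab Q := by
  obtain ⟨L, hL, hP⟩ := h
  exact ⟨L, hL, fun σ hσ => hPQ σ (hP σ hσ)⟩

theorem hasOpenStab_of_forall {P : Γℚ → Prop} (h : ∀ σ, P σ) : HasOpenStab P :=
  ⟨⊥, inferInstance, fun σ _ => h σ⟩

theorem HasOpenStab.and {P Q : Γℚ → Prop} (hP : HasOpenStab P) (hQ : HasOpenStab Q) :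
    HasOpenStab fun σ => P σ ∧ Q σ := by
  obtain ⟨L, hL, hP⟩ := hP
  obtain ⟨M, hM, hQ⟩ := hQ
  haveI := hL
  haveI := hM
  exact ⟨L ⊔ M, IntermediateField.finiteDimensional_sup L M, fun σ hσ =>
    ⟨hP σ fun x hx => hσ x ((le_sup_left : L ≤ L ⊔ M) hx),
      hQ σ fun x hx => hσ x ((le_sup_right : M ≤ L ⊔ M) hx)⟩⟩

theorem hasOpenStab_forall_mem {ι : Type*} (s : Finset ι) {P : ι → Γℚ → Prop}
    (h : ∀ i ∈ s, HasOpenStab (P i)) : HasOpenStab fun σ => ∀ i ∈ s, P i σ := by
  classical
  induction s using Finset.induction with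
  | empty => exact hasOpenStab_of_forall fun σ i hi => absurd hi (Finset.notMem_empty i)
  | insert a s _ ih =>
    refine ((h a (Finset.mem_insert_self a s)).and
      (ih fun i hi => h i (Finset.mem_insert_of_mem hi))).mono fun σ hσ i hi => ?_
    rcases Finset.mem_insert.mp hi with rfl | hi
    exacts [hσ.1, hσ.2 i hi]

theorem hasOpenStab_apply_eq (a : Qbar) : HasOpenStab fun σ => σ a = a :=
  haveI : Algebra.IsAlgebraic ℚ Qbar := AlgebraicClosure.isAlgebraic ℚ
  ⟨ℚ⟮a⟯, IntermediateField.adjoin.finiteDimensional (Algebra.IsIntegral.isIntegral a),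
    fun _ hσ => hσ a (IntermediateField.mem_adjoin_simple_self ℚ a)⟩

theorem hasOpenStab_coeffMap {F₀ : IntermediateField ℚ (LaurentSeries ℚ)} {x : LaurentSeries Qbar}
    (hx : x ∈ laurentBaseChange Qbar F₀) :
    HasOpenStab fun σ => coeffMap (σ : Qbar →+* Qbar) x = x := by
  rw [mem_laurentBaseChange_iff] at hx
  induction hx using Subfield.closure_induction with
  | mem y hy =>
    rcases hy with ⟨a, rfl⟩ | ⟨z, hz, rfl⟩
    · exact (hasOpenStab_apply_eq a).mono fun σ h =>
        (coeffMap_algebraMap (σ : Qbar →+* Qbar) a).trans (congrArg _ h)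
    · exact hasOpenStab_of_forall fun σ => coeffMap_coeffEmb σ z
  | one => exact hasOpenStab_of_forall fun σ => map_one _
  | add x y _ _ hx hy => exact (hx.and hy).mono fun σ h => by rw [map_add, h.1, h.2]
  | neg x _ hx => exact hx.mono fun σ h => by rw [map_neg, h]
  | inv x _ hx => exact hx.mono fun σ h => by rw [map_inv₀, h]
  | mul x y _ _ hx hy => exact (hx.and hy).mono fun σ h => by rw [map_mul, h.1, h.2]

/-- A finite list of elements whose fixers fix the given place. -/
theorem exists_finset_smul_place {K F : Type*} [Field K] [Field F] [Algebra K F]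
    [HasPrincipalDivisors K F] (P : Place K F) :
    ∃ s : Finset F, ∀ g : SemilinearAut K F, (∀ y ∈ s, g • y = y) → g • P = P := by
  classical
  obtain ⟨π, hπ⟩ := IsDiscreteValuationRing.exists_irreducible P.toValuationSubring
  have hπ0 : (π : F) ≠ 0 := fun h => hπ.ne_zero (Subtype.ext h)
  have hπ1 : P.ord (π : F) = 1 := P.ord_coe_irreducible hπ
  obtain ⟨D, hD, -⟩ := HasPrincipalDivisors.exists_divisor (K := K) (π : F) hπ0
  have hy : ∀ Q : Place K F, ∃ y : F,
      Q ≠ P → ¬ (y ∈ P.toValuationSubring ↔ y ∈ Q.toValuationSubring) := by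
    intro Q
    rcases Classical.em (∃ y : F, ¬ (y ∈ P.toValuationSubring ↔ y ∈ Q.toValuationSubring)) with
      ⟨y, h⟩ | h
    · exact ⟨y, fun _ => h⟩
    · refine ⟨0, fun hQ _ => hQ (Place.ext (SetLike.ext fun z => ?_))⟩
      exact (not_not.mp fun hz => h ⟨z, hz⟩).symm
  choose y hy using hy
  refine ⟨insert (π : F) (D.support.image y), fun g hg => ?_⟩
  by_contra hne
  have hord : (g • P).ord (π : F) = 1 := by
    have h := ord_smul g P (π : F)
    rw [hg _ (Finset.mem_insert_self _ _), hπ1] at h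
    exact h
  have hmem : g • P ∈ D.support := by
    rw [Finsupp.mem_support_iff, hD, hord]
    exact one_ne_zero
  have hgy : g • y (g • P) = y (g • P) :=
    hg _ (Finset.mem_insert_of_mem (Finset.mem_image_of_mem y hmem))
  refine hy _ hne ?_
  rw [smul_toValuationSubring, ValuationSubring.mem_pointwise_smul_iff_inv_smul_mem,
    inv_smul_eq_iff.mpr hgy.symm]

variable (N : ℕ)

local notation "g[" σ "]" => arithmeticGalois (modularFunctionFieldFull N) σ

theorem hasOpenStab_smul_eq (x : modularFunctionFieldBar N) :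
    HasOpenStab fun σ => g[σ] • x = x :=
  (hasOpenStab_coeffMap x.2).mono fun σ h => Subtype.ext ((coe_arithmeticGalois_smul _ σ x).trans h)

variable [HasPrincipalDivisors Qbar (modularFunctionFieldBar N)]

theorem hasOpenStab_place (P : Place Qbar (modularFunctionFieldBar N)) :
    HasOpenStab fun σ => g[σ] • P = P := by
  obtain ⟨s, hs⟩ := exists_finset_smul_place P
  exact (hasOpenStab_forall_mem s fun y _ => hasOpenStab_smul_eq N y).mono fun σ h => hs _ h

theorem hasOpenStab_divisor (D : Divisor Qbar (modularFunctionFieldBar N)) :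
    HasOpenStab fun σ => g[σ] • D = D := by
  refine (hasOpenStab_forall_mem D.support fun Q _ => hasOpenStab_place N Q).mono fun σ h => ?_
  rw [divisor_smul_def, Finsupp.mapDomain_congr (g := id) h, Finsupp.mapDomain_id]

/-- Every point of `J₀(N)(ℚ̄)` is fixed by an open subgroup. -/
theorem exists_finiteDimensional_fix (x : JZero N) :
    ∃ L : IntermediateField ℚ Qbar, FiniteDimensional ℚ L ∧
      ∀ σ : Γℚ, (∀ a ∈ L, σ a = a) → σ • x = x := by
  obtain ⟨D, rfl⟩ := Pic0.mk_surjective x
  refine (hasOpenStab_divisor N D.1).mono fun σ h => ?_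
  rw [galois_smul_pic0_def, pic0_smul_mk]
  exact congrArg Pic0.mk (Subtype.ext h)

end FLTA.GaloisReps
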