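import Mathlib
import Fermat.Prelude.Def_CuspForm_HeckeAlgebra
import Fermat.Prelude.Def_EllipticCurve_FrobeniusTrace
import Fermat.Prelude.Def_GaloisRep_ComplexConjugation
import Fermat.Prelude.Def_ModularCurve_ArithmeticGalois

/-!
# The p-adic Tate module of `J₀(N)` as matrices

`FLTA.GaloisReps.TateData N p` packages everything that the construction of Galois
representations attached to Hecke eigensystems needs to know about the Tate module:
after a choice of a ℤ-basis of parabolic homs of `Γ₀(N)`, Galois acts through matrices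
over `ℤ_[p]`, and Hecke operators and complex conjugation through integer matrices.
-/

set_option autoImplicit false

noncomputable section

open scoped Matrix

namespace FLTA.GaloisReps

/-- The absolute Galois group of `ℚ`. -/
abbrev GalQ : Type := AlgebraicClosure ℚ ≃ₐ[ℚ] AlgebraicClosure ℚ

/-- The full weight two Hecke algebra of level `N`. -/
abbrev FullHecke (N : ℕ) [NeZero N] : Type := ↥(CuspForm.heckeAlgebra N 2 (∅ : Set ℕ))

/-- Common eigenspace, for a character `χ`, of a family of integer matrices. -/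
def matEigenspace {T : Type} {r : ℕ} (H : T → Matrix (Fin r) (Fin r) ℤ)
    {K : Type} [CommRing K] (χ : T → K) : Submodule K (Fin r → K) where
  carrier := {v | ∀ t, ((H t).map (Int.cast : ℤ → K)) *ᵥ v = χ t • v}
  add_mem' := by
    intro v w hv hw t
    rw [Matrix.mulVec_add, hv t, hw t, smul_add]
  zero_mem' := by
    intro t
    rw [Matrix.mulVec_zero, smul_zero]
  smul_mem' := by
    intro c v hv t
    rw [Matrix.mulVec_smul, hv t, smul_comm]

theorem mem_matEigenspace_iff {T : Type} {r : ℕ} (H : T → Matrix (Fin r) (Fin r) ℤ)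
    {K : Type} [CommRing K] (χ : T → K) (v : Fin r → K) :
    v ∈ matEigenspace H χ ↔ ∀ t, ((H t).map (Int.cast : ℤ → K)) *ᵥ v = χ t • v :=
  Iff.rfl

/-- Everything needed about the `p`-adic Tate module of `J₀(N)`. -/
structure TateData (N : ℕ) [NeZero N] (p : ℕ) [Fact p.Prime] : Type 1 where
  /-- The rank (twice the genus). -/
  r : ℕ
  /-- The Galois action. -/
  rho : GalQ →* Matrix (Fin r) (Fin r) ℤ_[p]
  /-- The Hecke action, through integer matrices. -/
  hecke : FullHecke N →+* Matrix (Fin r) (Fin r) ℤ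
  /-- Complex conjugation, as an integer matrix. -/
  conjMat : Matrix (Fin r) (Fin r) ℤ
  conj_spec : rho complexConjugation = conjMat.map (Int.cast : ℤ → ℤ_[p])
  isContinuous : ∀ n : ℕ, ∃ L : IntermediateField ℚ (AlgebraicClosure ℚ),
    FiniteDimensional ℚ L ∧ ∀ σ : GalQ, (∀ x ∈ L, σ x = x) →
      (rho σ).map (PadicInt.toZModPow n) = 1
  commute : ∀ (σ : GalQ) (t : FullHecke N),
    Commute (rho σ) ((hecke t).map (Int.cast : ℤ → ℤ_[p]))
  frobenius : ∀ (ℓ : ℕ) (hℓ : ℓ.Prime) (hℓN : ¬ ℓ ∣ N), ℓ ≠ p →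
    ∀ A : ValuationSubring (AlgebraicClosure ℚ), A.LiesOverPrime ℓ →
      ∀ σ : GalQ, A.IsFrobeniusAt σ ℓ →
        rho σ * rho σ
          - ((hecke (CuspForm.heckeAlgebra.T hℓ hℓN (Set.notMem_empty ℓ))).map
              (Int.cast : ℤ → ℤ_[p])) * rho σ
          + (ℓ : Matrix (Fin r) (Fin r) ℤ_[p]) = 0
  unramified : ∀ q : ℕ, q.Prime → ¬ q ∣ N → q ≠ p →
    ∀ A : ValuationSubring (AlgebraicClosure ℚ), A.LiesOverPrime q →
      ∀ σ ∈ A.inertiaSubgroupIn ℚ, rho σ = 1
  hecke_injective : Function.Injective hecke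
  /-- Coordinates on the `p`-power torsion of `J₀(N)`. -/
  torsionEquiv : ∀ k : ℕ, (Fin r → ZMod (p ^ k)) ≃+
    ↥(Submodule.torsionBy ℤ (ModularCurve.JZero N) ((p : ℤ) ^ k))
  torsionEquiv_galois : ∀ (k : ℕ) (σ : GalQ) (v : Fin r → ZMod (p ^ k)),
    ((torsionEquiv k (((rho σ).map (PadicInt.toZModPow k)) *ᵥ v)) : ModularCurve.JZero N) =
      σ • (torsionEquiv k v : ModularCurve.JZero N)
  plane : ∀ (K : Type) [Field K] [CharZero K] (χ : FullHecke N →+* K),
    Module.finrank K (matEigenspace (fun t => hecke t) (fun t => χ t)) = 2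
  conj_not_scalar : ∀ (K : Type) [Field K] [CharZero K] (χ : FullHecke N →+* K) (a : K),
    ∃ v ∈ matEigenspace (fun t => hecke t) (fun t => χ t),
      (conjMat.map (Int.cast : ℤ → K)) *ᵥ v ≠ a • v

end FLTA.GaloisReps

end
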