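import Mathlib.LinearAlgebra.Matrix.ToLin
import Fermat.Agent.Gamma0.Complex.Main
import Fermat.Agent.Periods.HeckeQuot
import Fermat.Agent.GaloisReps.TateData

/-!
# The parabolic lattice of `Γ₀(N)` in coordinates

`latBasis N` is a ℤ-basis of `parQuot (Γ₀(N))` made of the classes of `parBasis N`; every refined
parabolic homomorphism, with values in any group, is a combination of these coordinates.
-/

set_option autoImplicit false

noncomputable section

open CongruenceSubgroup ModularCurve.Period
open scoped MatrixGroups Matrix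
open FLTA.Gamma0 (homPar0 homPar0Equiv homRank parBasis IsParHom0)
open FLTA.Periods

namespace FLTA.GaloisReps

variable (N : ℕ) [NeZero N]

/-- The classes of the homology basis in the parabolic lattice. -/
def latVec (i : Fin (homRank N)) : parQuot (Gamma0 N) :=
  parMk (Gamma0 N) (Additive.ofMul (parBasis N i))

variable {N}

theorem eq_zero_of_forall_functional {x : parQuot (Gamma0 N)}
    (h : ∀ u : parQuot (Gamma0 N) →+ ℤ, u x = 0) : x = 0 := by
  let b := Module.Free.chooseBasis ℤ (parQuot (Gamma0 N))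
  refine b.ext_elem fun i => ?_
  simpa using h (b.coord i).toAddMonoidHom

theorem isParHom0_comp_parMk {A : Type*} [AddCommGroup A] (u : parQuot (Gamma0 N) →+ A) :
    IsParHom0 (Gamma0 N) (u.comp (parMk (Gamma0 N))) := by
  intro γ hγ
  suffices h0 : parMk (Gamma0 N) (Additive.ofMul γ) = 0 by
    rw [AddMonoidHom.comp_apply, h0, map_zero]
  refine eq_zero_of_forall_functional fun v => ?_
  have hv : v.comp (parMk (Gamma0 N)) ∈ homPar0 ℤ (Gamma0 N) ℤ := by
    rw [← FLTA.Gamma0.parabolicHoms_eq_homPar0 ℤ (Gamma0 N) ℤ (fun a ha => by simpa using ha)]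
    exact mem_parabolicHoms_iff.mpr (isParabolicHom_comp_parMk v)
  exact FLTA.Gamma0.mem_homPar0_iff.mp hv γ hγ

theorem functional_ext {u v : parQuot (Gamma0 N) →+ ℤ} (h : ∀ i, u (latVec N i) = v (latVec N i)) :
    u = v :=
  parQuot_hom_ext (Gamma0 N)
    (FLTA.Gamma0.homPar0_ext N (isParHom0_comp_parMk u) (isParHom0_comp_parMk v) h)

theorem exists_functional (i : Fin (homRank N)) :
    ∃ u : parQuot (Gamma0 N) →+ ℤ, ∀ j, u (latVec N j) = (Pi.single i (1 : ℤ) : Fin _ → ℤ) j := by
  let φ := (homPar0Equiv N ℤ ℤ).symm (Pi.single i (1 : ℤ))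
  obtain ⟨u, hu⟩ := exists_parQuot_factor (Γ := Gamma0 N) (φ := φ.1)
    (mem_parabolicHoms_iff.mp (FLTA.Gamma0.homPar0_le_parabolicHoms ℤ (Gamma0 N) ℤ φ.2))
  refine ⟨u, fun j => ?_⟩
  have h := congrFun ((homPar0Equiv N ℤ ℤ).apply_symm_apply (Pi.single i (1 : ℤ))) j
  rw [FLTA.Gamma0.homPar0Equiv_apply] at h
  rw [← h]
  exact DFunLike.congr_fun hu (Additive.ofMul (parBasis N j))

variable (N)

/-- Coordinates on the parabolic lattice. -/
def latEquivFun : parQuot (Gamma0 N) ≃ₗ[ℤ] (Fin (homRank N) → ℤ) :=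
  LinearEquiv.ofLinear
    (LinearMap.pi fun i => ((exists_functional (N := N) i).choose).toIntLinearMap)
    (Fintype.linearCombination ℤ (latVec N))
    (by
      refine LinearMap.pi_ext' fun j => LinearMap.ext_ring (funext fun i => ?_)
      simp only [LinearMap.comp_apply, LinearMap.id_apply, LinearMap.single_apply,
        LinearMap.pi_apply, Fintype.linearCombination_apply_single, one_smul,
        AddMonoidHom.coe_toIntLinearMap]
      rw [(exists_functional (N := N) i).choose_spec j]
      simp [Pi.single_apply, eq_comm])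
    (by
      refine LinearMap.ext fun x => sub_eq_zero.mp (eq_zero_of_forall_functional fun v => ?_)
      have hv : v = ∑ i, v (latVec N i) • (exists_functional (N := N) i).choose :=
        functional_ext fun j => by
          rw [AddMonoidHom.finsetSum_apply]
          rw [Finset.sum_eq_single j]
          · rw [AddMonoidHom.smul_apply, (exists_functional (N := N) j).choose_spec j]
            simp
          · intro b _ hb
            rw [AddMonoidHom.smul_apply, (exists_functional (N := N) b).choose_spec j,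
              Pi.single_eq_of_ne (Ne.symm hb), smul_zero]
          · simp
      rw [map_sub, sub_eq_zero]
      conv_rhs => rw [LinearMap.id_apply, hv]
      simp [Fintype.linearCombination_apply, map_sum, mul_comm])

/-- The basis of the parabolic lattice. -/
def latBasis : Module.Basis (Fin (homRank N)) ℤ (parQuot (Gamma0 N)) :=
  Module.Basis.ofEquivFun (latEquivFun N)

theorem latBasis_apply (i : Fin (homRank N)) : latBasis N i = latVec N i := by
  apply (latEquivFun N).injective
  simp [latBasis, latEquivFun, Pi.single_apply, eq_comm,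
    (exists_functional (N := N) _).choose_spec, funext_iff]

/-- The matrix of an endomorphism of the lattice acting on coordinates of functionals. -/
def latMat (M : Module.End ℤ (parQuot (Gamma0 N))) :
    Matrix (Fin (homRank N)) (Fin (homRank N)) ℤ :=
  (LinearMap.toMatrixAlgEquiv (latBasis N) M)ᵀ

theorem latMat_mulVec {A : Type*} [CommRing A] (M : Module.End ℤ (parQuot (Gamma0 N)))
    (u : parQuot (Gamma0 N) →+ A) :
    (latMat N M).map (Int.cast : ℤ → A) *ᵥ (fun i => u (latVec N i)) =
      fun i => u (M (latVec N i)) := by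
  funext i
  conv_rhs => rw [← latBasis_apply, ← (latBasis N).sum_repr (M (latBasis N i)), map_sum]
  simp [latMat, Matrix.mulVec, dotProduct, LinearMap.toMatrixAlgEquiv_apply, map_zsmul,
    latBasis_apply]

/-- The Hecke algebra through integer matrices. -/
def heckeMat : FullHecke N →+* Matrix (Fin (homRank N)) (Fin (homRank N)) ℤ where
  toFun t := latMat N (heckeQuot N t)
  map_one' := by simp [latMat]
  map_mul' t t' := by
    rw [mul_comm t t', map_mul, latMat, map_mul, Matrix.transpose_mul]
    rfl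
  map_zero' := by simp [latMat]
  map_add' t t' := by simp [latMat]

theorem heckeMat_injective : Function.Injective (heckeMat N) :=
  fun _ _ h => heckeQuot_injective N
    ((LinearMap.toMatrixAlgEquiv (latBasis N)).injective (Matrix.transpose_injective h))

/-- Complex conjugation on the Tate module, through an integer matrix. -/
def conjLatMat : Matrix (Fin (homRank N)) (Fin (homRank N)) ℤ :=
  latMat N (-(parInvol N).toIntLinearMap)

variable {N}

theorem homPar0_eq_comp_parMk {A : Type*} [AddCommGroup A] (φ : homPar0 ℤ (Gamma0 N) A) :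
    φ.1 = ((latBasis N).constr ℤ (homPar0Equiv N ℤ A φ)).toAddMonoidHom.comp
      (parMk (Gamma0 N)) := by
  refine FLTA.Gamma0.homPar0_ext N φ.2 (isParHom0_comp_parMk _) fun i => ?_
  rw [AddMonoidHom.comp_apply]
  show _ = (latBasis N).constr ℤ _ (latVec N i)
  rw [← latBasis_apply, Module.Basis.constr_basis]
  rfl

theorem pairQuot_comp_eq_of_isTranspose {t : Module.End ℂ (CF2 N)} {p : ℕ}
    (h : ∀ f g : CF2 N, ModularCurve.periodHomPair N (t f, t g) =
      heckeHom ℂ N p (ModularCurve.periodHomPair N (f, g)))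
    {M : Module.End ℤ (parQuot (Gamma0 N))} (hM : IsTranspose N t M) :
    M.toAddMonoidHom.comp (parMk (Gamma0 N)) = heckeHom ℤ N p (parMk (Gamma0 N)) := by
  refine AddMonoidHom.ext fun γ => sub_eq_zero.mp (eq_zero_of_forall_pairQuot_eq_zero fun q => ?_)
  rw [map_sub, sub_eq_zero]
  have h1 := h q.1 q.2
  rw [← pairQuot_comp_parMk, ← pairQuot_comp_parMk, hM q.1 q.2, heckeHom_eq_int,
    heckeHom_comp] at h1
  exact DFunLike.congr_fun h1 γ

theorem heckeQuot_T_comp {ℓ : ℕ} (hℓ : ℓ.Prime) (hℓN : ¬ ℓ ∣ N) :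
    (heckeQuot N (CuspForm.heckeAlgebra.T hℓ hℓN (Set.notMem_empty ℓ))).toAddMonoidHom.comp
      (parMk (Gamma0 N)) = heckeHom ℤ N ℓ (parMk (Gamma0 N)) :=
  pairQuot_comp_eq_of_isTranspose (t := CuspForm.heckeTLin 2 hℓ hℓN) (periodHomPair_heckeTLin hℓ hℓN)
    (heckeQuot_isTranspose N (CuspForm.heckeAlgebra.T hℓ hℓN (Set.notMem_empty ℓ)))

theorem heckeQuot_U_comp {q : ℕ} (hq : q.Prime) (hqN : q ∣ N) :
    (heckeQuot N (CuspForm.heckeAlgebra.U hq hqN (Set.notMem_empty q))).toAddMonoidHom.comp
      (parMk (Gamma0 N)) = heckeHom ℤ N q (parMk (Gamma0 N)) :=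
  pairQuot_comp_eq_of_isTranspose (t := CuspForm.heckeULin 2 hqN) (periodHomPair_heckeULin hqN)
    (heckeQuot_isTranspose N (CuspForm.heckeAlgebra.U hq hqN (Set.notMem_empty q)))

/-- If `M` induces `heckeHom p` on the lattice, its matrix gives `heckeHom p` in coordinates. -/
theorem latMat_mulVec_heckeHom {A : Type*} [CommRing A] {p : ℕ}
    {M : Module.End ℤ (parQuot (Gamma0 N))}
    (hM : M.toAddMonoidHom.comp (parMk (Gamma0 N)) = heckeHom ℤ N p (parMk (Gamma0 N)))
    (φ ψ : homPar0 ℤ (Gamma0 N) A) (h : ψ.1 = heckeHom ℤ N p φ.1) :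
    (latMat N M).map (Int.cast : ℤ → A) *ᵥ homPar0Equiv N ℤ A φ = homPar0Equiv N ℤ A ψ := by
  set u := ((latBasis N).constr ℤ (homPar0Equiv N ℤ A φ)).toAddMonoidHom with hu
  have hφ := homPar0_eq_comp_parMk φ
  have hv : homPar0Equiv N ℤ A φ = fun i => u (latVec N i) := funext fun i =>
    DFunLike.congr_fun hφ (Additive.ofMul (parBasis N i))
  rw [hv, latMat_mulVec]
  funext i
  rw [FLTA.Gamma0.homPar0Equiv_apply, h, hφ, ← hu, heckeHom_comp, ← hM]
  rfl

theorem conjLatMat_mulVec {A : Type*} [CommRing A] (φ ψ : homPar0 ℤ (Gamma0 N) A)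
    (h : ψ.1 = -(charInvolution N ℤ A φ.1)) :
    (conjLatMat N).map (Int.cast : ℤ → A) *ᵥ homPar0Equiv N ℤ A φ = homPar0Equiv N ℤ A ψ := by
  set u := ((latBasis N).constr ℤ (homPar0Equiv N ℤ A φ)).toAddMonoidHom with hu
  have hφ := homPar0_eq_comp_parMk φ
  have hv : homPar0Equiv N ℤ A φ = fun i => u (latVec N i) := funext fun i =>
    DFunLike.congr_fun hφ (Additive.ofMul (parBasis N i))
  rw [hv, conjLatMat, latMat_mulVec]
  funext i
  rw [FLTA.Gamma0.homPar0Equiv_apply, h, hφ, ← hu, charInvolution_comp_parMk]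
  exact map_neg u _

end FLTA.GaloisReps
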