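import Mathlib.NumberTheory.Padics.RingHoms
import Fermat.Agent.Curves.BasicModular
import Fermat.Agent.Kummer.Comparison
import Fermat.Agent.GaloisReps.TateConstructLattice
import Fermat.Agent.GaloisReps.TateConstructCommute
import Fermat.Agent.GaloisReps.TateConstructStab

/-!
# The `p`-adic Tate module of `J₀(N)` in coordinates
-/

set_option autoImplicit false

noncomputable section

open ModularCurve AlgebraicCurve CongruenceSubgroup
open scoped Matrix
open FLTA.Gamma0 (homPar0 homPar0Equiv homRank parBasis homPar0Map)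
open FLTA.Kummer (JTors kummerEquiv)

namespace FLTA.GaloisReps

section Limit

variable {p : ℕ} [Fact p.Prime]

theorem dvd_val_sub_of_compat {a : ∀ k, ZMod (p ^ k)}
    (h : ∀ k, ZMod.castHom (pow_dvd_pow p (Nat.le_succ k)) (ZMod (p ^ k)) (a (k + 1)) = a k)
    (i : ℕ) :
    ((p : ℤ) ^ i) ∣ ((a (i + 1)).val : ℤ) - ((a i).val : ℤ) := by
  haveI : ∀ k, NeZero (p ^ k) := fun k => ⟨pow_ne_zero _ (Fact.out (p := p.Prime)).ne_zero⟩
  rw [show ((p : ℤ) ^ i) = ((p ^ i : ℕ) : ℤ) by push_cast; rfl,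
    ← ZMod.intCast_zmod_eq_zero_iff_dvd]
  push_cast
  rw [ZMod.natCast_zmod_val, sub_eq_zero]
  rw [← h i, ZMod.castHom_apply]
  exact ZMod.natCast_val _

theorem exists_padicInt_of_compat {a : ∀ k, ZMod (p ^ k)}
    (h : ∀ k, ZMod.castHom (pow_dvd_pow p (Nat.le_succ k)) (ZMod (p ^ k)) (a (k + 1)) = a k) :
    ∃ x : ℤ_[p], ∀ k, PadicInt.toZModPow k x = a k := by
  haveI : ∀ k, NeZero (p ^ k) := fun k => ⟨pow_ne_zero _ (Fact.out (p := p.Prime)).ne_zero⟩
  refine ⟨PadicInt.ofIntSeq _ (PadicInt.isCauSeq_padicNorm_of_pow_dvd_sub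
    (fun k => ((a k).val : ℤ)) p (dvd_val_sub_of_compat h)), fun k => ?_⟩
  rw [PadicInt.toZModPow_ofIntSeq_of_pow_dvd_sub (fun k => ((a k).val : ℤ)) p
    (dvd_val_sub_of_compat h) k]
  simp

theorem matrix_ext_of_toZModPow {m n : Type*} {A B : Matrix m n ℤ_[p]}
    (h : ∀ k, A.map (PadicInt.toZModPow k) = B.map (PadicInt.toZModPow k)) : A = B := by
  ext i j
  exact PadicInt.ext_of_toZModPow.mp fun k => congrFun (congrFun (h k) i) j

theorem map_intCast_toZModPow {m n : Type*} (A : Matrix m n ℤ) (k : ℕ) :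
    (A.map (Int.cast : ℤ → ℤ_[p])).map (PadicInt.toZModPow k) =
      A.map (Int.cast : ℤ → ZMod (p ^ k)) := by
  ext i j
  simp

end Limit

variable (N : ℕ) [NeZero N]

section Level

variable (n : ℕ) [NeZero n]

/-- Coordinates on the `n`-torsion. -/
def torsCoord : JTors N n ≃ₗ[ZMod n] (Fin (homRank N) → ZMod n) :=
  let e := (kummerEquiv N n).trans (homPar0Equiv N ℤ (ZMod n)).toAddEquiv
  { e.toAddMonoidHom.toZModLinearMap n with
    invFun := e.symm
    left_inv := e.left_inv
    right_inv := e.right_inv }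

theorem torsCoord_apply (x : JTors N n) :
    torsCoord N n x = homPar0Equiv N ℤ (ZMod n) (kummerEquiv N n x) :=
  rfl

/-- The Galois action on the `n`-torsion in coordinates. -/
def galMat : GalQ →* Matrix (Fin (homRank N)) (Fin (homRank N)) (ZMod n) :=
  (LinearMap.toMatrixAlgEquiv' :
      ((Fin (homRank N) → ZMod n) →ₗ[ZMod n] (Fin (homRank N) → ZMod n)) ≃ₐ[ZMod n] _).toAlgHom.toRingHom.toMonoidHom.comp
    (((torsCoord N n).conjAlgEquiv (ZMod n)).toAlgHom.toRingHom.toMonoidHom.comp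
      (JZero.torsionGaloisRep N n))

theorem galMat_mulVec (σ : GalQ) (x : JTors N n) :
    galMat N n σ *ᵥ torsCoord N n x = torsCoord N n (JZero.torsionGaloisRep N n σ x) := by
  show LinearMap.toMatrixAlgEquiv'
      ((torsCoord N n).conjAlgEquiv (ZMod n) (JZero.torsionGaloisRep N n σ)) *ᵥ torsCoord N n x = _
  rw [← Matrix.toLinAlgEquiv'_apply, Matrix.toLinAlgEquiv'_toMatrixAlgEquiv',
    LinearEquiv.conjAlgEquiv_apply]
  simp

variable {N n} in
theorem matrix_ext_torsCoord {A B : Matrix (Fin (homRank N)) (Fin (homRank N)) (ZMod n)}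
    (h : ∀ x : JTors N n, A *ᵥ torsCoord N n x = B *ᵥ torsCoord N n x) : A = B :=
  Matrix.ext_of_mulVec_single fun i => by
    obtain ⟨x, hx⟩ := (torsCoord N n).surjective (Pi.single i 1)
    rw [← hx]
    exact h x

theorem galMat_eq_one_iff (σ : GalQ) :
    galMat N n σ = 1 ↔ ∀ x : JTors N n, σ • (x : JZero N) = x := by
  constructor
  · intro h x
    have h1 := galMat_mulVec N n σ x
    rw [h, Matrix.one_mulVec] at h1
    exact congrArg Subtype.val ((torsCoord N n).injective h1).symm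
  · intro h
    refine matrix_ext_torsCoord fun x => ?_
    rw [galMat_mulVec, Matrix.one_mulVec]
    exact congrArg _ (Subtype.ext (h x))

theorem galMat_complexConjugation :
    galMat N n complexConjugation = (conjLatMat N).map (Int.cast : ℤ → ZMod n) := by
  refine matrix_ext_torsCoord fun x => ?_
  rw [galMat_mulVec, torsCoord_apply, torsCoord_apply]
  exact (conjLatMat_mulVec _ _ (FLTA.Kummer.kummerEquiv_complexConjugation N n x)).symm

theorem hecke_mem_torsion (ℓ : Nat.Primes) (x : JTors N n) :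
    heckeOperatorBar N ℓ (x : JZero N) ∈
      Pic0.torsion (AlgebraicClosure ℚ) (modularFunctionFieldBar N) n := by
  have hx := Pic0.mem_torsion.mp x.2
  rw [Pic0.mem_torsion, ← map_zsmul, hx, map_zero]

/-- A lattice endomorphism inducing `heckeHom ℓ` computes the Hecke operator on torsion. -/
theorem latMat_mulVec_torsCoord (ℓ : Nat.Primes)
    {M : Module.End ℤ (FLTA.Periods.parQuot (Gamma0 N))}
    (hM : M.toAddMonoidHom.comp (FLTA.Periods.parMk (Gamma0 N)) =
      FLTA.Periods.heckeHom ℤ N ℓ (FLTA.Periods.parMk (Gamma0 N)))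
    (x : JTors N n) :
    (latMat N M).map (Int.cast : ℤ → ZMod n) *ᵥ torsCoord N n x =
      torsCoord N n ⟨heckeOperatorBar N ℓ (x : JZero N), hecke_mem_torsion N n ℓ x⟩ := by
  rw [torsCoord_apply, torsCoord_apply]
  exact latMat_mulVec_heckeHom hM _ _
    (FLTA.Kummer.kummerEquiv_heckeOperatorBar N n ℓ x
      ⟨heckeOperatorBar N ℓ (x : JZero N), hecke_mem_torsion N n ℓ x⟩ rfl)

theorem commute_galMat_latMat (ℓ : Nat.Primes)
    {M : Module.End ℤ (FLTA.Periods.parQuot (Gamma0 N))}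
    (hM : M.toAddMonoidHom.comp (FLTA.Periods.parMk (Gamma0 N)) =
      FLTA.Periods.heckeHom ℤ N ℓ (FLTA.Periods.parMk (Gamma0 N)))
    (σ : GalQ) : Commute (galMat N n σ) ((latMat N M).map (Int.cast : ℤ → ZMod n)) := by
  refine matrix_ext_torsCoord fun x => ?_
  rw [← Matrix.mulVec_mulVec, ← Matrix.mulVec_mulVec, latMat_mulVec_torsCoord N n ℓ hM,
    galMat_mulVec, galMat_mulVec, latMat_mulVec_torsCoord N n ℓ hM]
  refine congrArg _ (Subtype.ext ?_)
  exact heckeOperatorBar_galois N ℓ σ (x : JZero N)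

theorem exists_level_galMat :
    ∃ L : IntermediateField ℚ (AlgebraicClosure ℚ), FiniteDimensional ℚ L ∧
      ∀ σ : GalQ, (∀ a ∈ L, σ a = a) → galMat N n σ = 1 := by
  haveI := Fintype.ofFinite (JTors N n)
  refine (hasOpenStab_forall_mem (Finset.univ : Finset (JTors N n))
    fun x _ => exists_finiteDimensional_fix N (x : JZero N)).mono fun σ h => ?_
  exact (galMat_eq_one_iff N n σ).mpr fun x => h x (Finset.mem_univ _)

end Level

theorem commute_ringHom_of_gen {N : ℕ} [NeZero N] {R : Type*} [Ring R] (f : FullHecke N →+* R)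
    (a : R)
    (hT : ∀ ℓ (hℓ : ℓ.Prime) (hℓN : ¬ ℓ ∣ N),
      Commute a (f (CuspForm.heckeAlgebra.T hℓ hℓN (Set.notMem_empty ℓ))))
    (hU : ∀ q (hq : q.Prime) (hqN : q ∣ N),
      Commute a (f (CuspForm.heckeAlgebra.U hq hqN (Set.notMem_empty q))))
    (t : FullHecke N) : Commute a (f t) := by
  obtain ⟨t, ht⟩ := t
  induction ht using Algebra.adjoin_induction with
  | mem x hx =>
    rcases hx with ⟨ℓ, hℓ, hℓN, -, rfl⟩ | ⟨q, hqN, hq, -, rfl⟩
    · exact hT ℓ hℓ hℓN
    · exact hU q hq hqN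
  | algebraMap m =>
    change Commute _ (f (algebraMap ℤ (FullHecke N) m))
    rw [eq_intCast (algebraMap ℤ (FullHecke N)) m, map_intCast]
    exact (Int.cast_commute _ _).symm
  | add x y hx hy ihx ihy =>
    change Commute _ (f ((⟨x, hx⟩ : FullHecke N) + ⟨y, hy⟩))
    rw [map_add]
    exact ihx.add_right ihy
  | mul x y hx hy ihx ihy =>
    change Commute _ (f ((⟨x, hx⟩ : FullHecke N) * ⟨y, hy⟩))
    rw [map_mul]
    exact ihx.mul_right ihy

section Tower

variable (p : ℕ) [Fact p.Prime]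

local instance instNeZeroPow (k : ℕ) : NeZero (p ^ k) :=
  ⟨pow_ne_zero _ (Fact.out (p := p.Prime)).ne_zero⟩

/-- Reduction of the coefficients by one level. -/
abbrev redK (k : ℕ) : ZMod (p ^ (k + 1)) →+* ZMod (p ^ k) :=
  ZMod.castHom (pow_dvd_pow p (Nat.le_succ k)) (ZMod (p ^ k))

theorem torsCoord_psmul (k : ℕ) (x : JTors N (p ^ (k + 1))) :
    torsCoord N (p ^ k) ⟨p • x.1, FLTA.Kummer.nsmul_mem_torsion (pow_succ p k).symm x.2⟩ =
      fun i => redK p k (torsCoord N (p ^ (k + 1)) x i) := by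
  funext i
  rw [torsCoord_apply, torsCoord_apply,
    FLTA.Kummer.kummerEquiv_nsmul N (p ^ k) (p ^ (k + 1)) p (pow_succ p k).symm x,
    FLTA.Gamma0.homPar0Equiv_apply, FLTA.Gamma0.homPar0Equiv_apply]
  rfl

theorem galMat_compat (k : ℕ) (σ : GalQ) :
    (galMat N (p ^ (k + 1)) σ).map (redK p k) = galMat N (p ^ k) σ := by
  refine Matrix.ext_of_mulVec_single fun i => ?_
  obtain ⟨y, hy⟩ := (torsCoord N (p ^ (k + 1))).surjective (Pi.single i 1)
  have h1 : (fun j => redK p k (torsCoord N (p ^ (k + 1)) y j)) =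
      (Pi.single i 1 : Fin (homRank N) → ZMod (p ^ k)) := by
    funext j
    rw [hy, Pi.single_apply, Pi.single_apply, apply_ite (redK p k), map_one, map_zero]
  rw [← h1]
  conv_rhs => rw [← torsCoord_psmul, galMat_mulVec]
  have h2 := galMat_mulVec N (p ^ (k + 1)) σ y
  funext j
  refine ((RingHom.map_mulVec (redK p k) _ _ j).symm.trans ?_)
  rw [h2]
  rw [← congrFun (torsCoord_psmul N p k (JZero.torsionGaloisRep N (p ^ (k + 1)) σ y)) j]
  refine congrArg (fun z => torsCoord N (p ^ k) z j) (Subtype.ext ?_)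
  exact (map_nsmul (DistribSMul.toAddMonoidHom (JZero N) σ) p y.1).symm

/-- The `(i,j)` entry of the Galois action on the Tate module. -/
def tateEntry (σ : GalQ) (i j : Fin (homRank N)) : ℤ_[p] :=
  (exists_padicInt_of_compat (a := fun k => galMat N (p ^ k) σ i j)
    fun k => congrFun (congrFun (galMat_compat N p k σ) i) j).choose

theorem map_tateEntry (σ : GalQ) (k : ℕ) :
    (Matrix.of (tateEntry N p σ)).map (PadicInt.toZModPow k) = galMat N (p ^ k) σ := by
  ext i j
  exact (exists_padicInt_of_compat (a := fun k => galMat N (p ^ k) σ i j)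
    fun k => congrFun (congrFun (galMat_compat N p k σ) i) j).choose_spec k

/-- The Galois action on the Tate module. -/
def tateRho : GalQ →* Matrix (Fin (homRank N)) (Fin (homRank N)) ℤ_[p] where
  toFun σ := Matrix.of (tateEntry N p σ)
  map_one' := matrix_ext_of_toZModPow fun k => by
    rw [map_tateEntry, map_one, Matrix.map_one _ (map_zero _) (map_one _)]
  map_mul' σ τ := matrix_ext_of_toZModPow fun k => by
    rw [map_tateEntry, map_mul, Matrix.map_mul, map_tateEntry, map_tateEntry]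

theorem map_tateRho (σ : GalQ) (k : ℕ) :
    (tateRho N p σ).map (PadicInt.toZModPow k) = galMat N (p ^ k) σ :=
  map_tateEntry N p σ k

theorem commute_tateRho_gen (ℓ : Nat.Primes)
    {M : Module.End ℤ (FLTA.Periods.parQuot (Gamma0 N))}
    (hM : M.toAddMonoidHom.comp (FLTA.Periods.parMk (Gamma0 N)) =
      FLTA.Periods.heckeHom ℤ N ℓ (FLTA.Periods.parMk (Gamma0 N)))
    (σ : GalQ) : Commute (tateRho N p σ) ((latMat N M).map (Int.cast : ℤ → ℤ_[p])) := by
  refine matrix_ext_of_toZModPow fun k => ?_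
  rw [Matrix.map_mul, Matrix.map_mul, map_tateRho, map_intCast_toZModPow]
  exact commute_galMat_latMat N (p ^ k) ℓ hM σ

theorem tateRho_complexConjugation :
    tateRho N p complexConjugation = (conjLatMat N).map (Int.cast : ℤ → ℤ_[p]) :=
  matrix_ext_of_toZModPow fun k => by
    rw [map_tateRho, map_intCast_toZModPow, galMat_complexConjugation]

theorem commute_tateRho (σ : GalQ) (t : FullHecke N) :
    Commute (tateRho N p σ) ((heckeMat N t).map (Int.cast : ℤ → ℤ_[p])) := by
  refine commute_ringHom_of_gen ((Int.castRingHom ℤ_[p]).mapMatrix.comp (heckeMat N))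
    (tateRho N p σ) ?_ ?_ t
  · intro ℓ hℓ hℓN
    exact commute_tateRho_gen N p ⟨ℓ, hℓ⟩ (heckeQuot_T_comp hℓ hℓN) σ
  · intro q hq hqN
    exact commute_tateRho_gen N p ⟨q, hq⟩ (heckeQuot_U_comp hq hqN) σ

/-- Coordinates on the `p`-power torsion. -/
def tateTorsionEquiv (k : ℕ) : (Fin (homRank N) → ZMod (p ^ k)) ≃+
    ↥(Submodule.torsionBy ℤ (JZero N) ((p : ℤ) ^ k)) :=
  (torsCoord N (p ^ k)).symm.toAddEquiv.trans
    { toFun := fun x => ⟨x.1, by
        rw [Submodule.mem_torsionBy_iff]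
        simpa using Pic0.mem_torsion.mp x.2⟩
      invFun := fun x => ⟨x.1, by
        rw [Pic0.mem_torsion]
        simpa using (Submodule.mem_torsionBy_iff _ _).mp x.2⟩
      left_inv := fun _ => rfl
      right_inv := fun _ => rfl
      map_add' := fun _ _ => rfl }

theorem coe_tateTorsionEquiv (k : ℕ) (w : Fin (homRank N) → ZMod (p ^ k)) :
    ((tateTorsionEquiv N p k w) : JZero N) = ((torsCoord N (p ^ k)).symm w : JTors N (p ^ k)).1 :=
  rfl

theorem tateTorsionEquiv_galois (k : ℕ) (σ : GalQ) (v : Fin (homRank N) → ZMod (p ^ k)) :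
    ((tateTorsionEquiv N p k (((tateRho N p σ).map (PadicInt.toZModPow k)) *ᵥ v)) : JZero N) =
      σ • (tateTorsionEquiv N p k v : JZero N) := by
  obtain ⟨x, rfl⟩ := (torsCoord N (p ^ k)).surjective v
  rw [map_tateRho, galMat_mulVec, coe_tateTorsionEquiv, coe_tateTorsionEquiv,
    LinearEquiv.symm_apply_apply, LinearEquiv.symm_apply_apply]
  exact JZero.coe_torsionGaloisRep_apply N σ x

theorem isContinuous_tateRho (k : ℕ) : ∃ L : IntermediateField ℚ (AlgebraicClosure ℚ),
    FiniteDimensional ℚ L ∧ ∀ σ : GalQ, (∀ x ∈ L, σ x = x) →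
      (tateRho N p σ).map (PadicInt.toZModPow k) = 1 := by
  obtain ⟨L, hL, h⟩ := exists_level_galMat N (p ^ k)
  exact ⟨L, hL, fun σ hσ => (map_tateRho N p σ k).trans (h σ hσ)⟩

end Tower

end FLTA.GaloisReps
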