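import Fermat.Prelude.Def_GaloisRep_Adic
import Mathlib.NumberTheory.Cyclotomic.CyclotomicCharacter
import Mathlib.RingTheory.RootsOfUnity.AlgebraicallyClosed
import Fermat.Agent.Density.Frobenius
import Fermat.Agent.Galois.Cyclotomic
import Mathlib.RingTheory.Filtration
import Mathlib.LinearAlgebra.Matrix.Charpoly.Coeff
import Mathlib.FieldTheory.Galois.Basic

/-!
The determinant trick: a two-dimensional adic representation of the absolute Galois group of the
rationals whose Frobenius elements satisfy `X^2 - a X + l` and which has a non-scalar image has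
cyclotomic determinant and exact characteristic polynomials.
-/

set_option autoImplicit false

open scoped IntermediateField
open Polynomial

namespace FLTA.GaloisReps

local notation "Γℚ" => AlgebraicClosure ℚ ≃ₐ[ℚ] AlgebraicClosure ℚ

theorem normal_qbar : Normal ℚ (AlgebraicClosure ℚ) :=
  haveI : Algebra.IsAlgebraic ℚ (AlgebraicClosure ℚ) := AlgebraicClosure.isAlgebraic ℚ
  haveI : IsAlgClosure ℚ (AlgebraicClosure ℚ) := ⟨inferInstance, inferInstance⟩
  IsAlgClosure.normal ℚ (AlgebraicClosure ℚ)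

/-- The p-adic cyclotomic character of the absolute Galois group of the rationals. -/
noncomputable def cycloPadic (p : ℕ) [Fact p.Prime] : Γℚ →* ℤ_[p] where
  toFun σ := ((cyclotomicCharacter (AlgebraicClosure ℚ) p σ.toRingEquiv : (ℤ_[p])ˣ) : ℤ_[p])
  map_one' := by
    rw [show (1 : Γℚ).toRingEquiv = 1 from rfl, map_one, Units.val_one]
  map_mul' σ τ := by
    rw [show (σ * τ).toRingEquiv = σ.toRingEquiv * τ.toRingEquiv from rfl, map_mul, Units.val_mul]

section Algebra

variable {O E : Type*} [CommRing O] [Ring E] [Algebra O E]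

theorem exists_smul_one_pow_add (x y : E) (a c : O) (hxy : x * y = 1) (hyx : y * x = 1)
    (h : x + c • y = a • (1 : E)) (n : ℕ) : ∃ t : O, x ^ n + c ^ n • y ^ n = t • (1 : E) := by
  induction n using Nat.twoStepInduction with
  | zero => exact ⟨2, by simp [two_smul]⟩
  | one => exact ⟨a, by simpa using h⟩
  | more n h1 h2 =>
    obtain ⟨t1, ht1⟩ := h1
    obtain ⟨t2, ht2⟩ := h2
    refine ⟨a * t2 - c * t1, ?_⟩
    have e1 : x * y ^ (n + 1) = y ^ n := by rw [pow_succ' y n, ← mul_assoc, hxy, one_mul]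
    have e2 : y * x ^ (n + 1) = x ^ n := by rw [pow_succ' x n, ← mul_assoc, hyx, one_mul]
    have key : (x + c • y) * (x ^ (n + 1) + c ^ (n + 1) • y ^ (n + 1)) =
        (x ^ (n + 2) + c ^ (n + 2) • y ^ (n + 2)) + c • (x ^ n + c ^ n • y ^ n) := by
      rw [mul_add, add_mul, add_mul, mul_smul_comm, smul_mul_assoc, smul_mul_assoc,
        mul_smul_comm, e1, e2, ← pow_succ' x (n + 1), ← pow_succ' y (n + 1), smul_add]
      simp only [smul_smul, show n + 1 + 1 = n + 2 from rfl]
      rw [show c * c ^ (n + 1) = c ^ (n + 2) from (pow_succ' c (n + 1)).symm,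
        show c * c ^ n = c ^ (n + 1) from (pow_succ' c n).symm]
      abel
    rw [h, ht1, ht2, smul_mul_assoc, one_mul] at key
    rw [sub_smul, mul_smul, mul_smul]
    exact eq_sub_of_add_eq key.symm

end Algebra

section TwoByTwo

variable {O : Type*} [CommRing O] [IsDomain O]

theorem scalar_or_eq_of_quadratic (M : Matrix (Fin 2) (Fin 2) O) (t d : O)
    (h : M * M - t • M + d • (1 : Matrix (Fin 2) (Fin 2) O) = 0) :
    (∃ r : O, M = r • (1 : Matrix (Fin 2) (Fin 2) O)) ∨ (t = M.trace ∧ d = M.det) := by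
  have h00 := congrFun (congrFun h 0) 0
  have h01 := congrFun (congrFun h 0) 1
  have h10 := congrFun (congrFun h 1) 0
  have h11 := congrFun (congrFun h 1) 1
  simp [Matrix.mul_apply, Fin.sum_univ_two, smul_eq_mul] at h00 h01 h10 h11
  by_cases ht : t = M.trace
  · refine Or.inr ⟨ht, ?_⟩
    rw [Matrix.trace_fin_two] at ht
    rw [Matrix.det_fin_two]
    subst ht
    linear_combination h00
  · rw [Matrix.trace_fin_two] at ht
    have hne : M 0 0 + M 1 1 - t ≠ 0 := sub_ne_zero.mpr (Ne.symm ht)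
    have e01 : M 0 1 = 0 := by
      have : (M 0 0 + M 1 1 - t) * M 0 1 = 0 := by linear_combination h01
      exact (mul_eq_zero.mp this).resolve_left hne
    have e10 : M 1 0 = 0 := by
      have : (M 0 0 + M 1 1 - t) * M 1 0 = 0 := by linear_combination h10
      exact (mul_eq_zero.mp this).resolve_left hne
    have e00 : M 0 0 = M 1 1 := by
      have : (M 0 0 + M 1 1 - t) * (M 0 0 - M 1 1) = 0 := by linear_combination h00 - h11
      exact sub_eq_zero.mp ((mul_eq_zero.mp this).resolve_left hne)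
    refine Or.inl ⟨M 1 1, ?_⟩
    ext i j
    fin_cases i <;> fin_cases j <;> simp [e01, e10, e00]

theorem trace_eq_of_quadratic_of_det_eq (M : Matrix (Fin 2) (Fin 2) O) (t d : O) (hd : d ≠ 0)
    (hdet : M.det = d) (h : M * M - t • M + d • (1 : Matrix (Fin 2) (Fin 2) O) = 0) :
    M.trace = t := by
  have h00 := congrFun (congrFun h 0) 0
  have h01 := congrFun (congrFun h 0) 1
  have h10 := congrFun (congrFun h 1) 0
  have h11 := congrFun (congrFun h 1) 1
  simp [Matrix.mul_apply, Fin.sum_univ_two, smul_eq_mul] at h00 h01 h10 h11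
  rw [Matrix.det_fin_two] at hdet
  rw [Matrix.trace_fin_two]
  by_contra hne
  have hne' : M 0 0 + M 1 1 - t ≠ 0 := sub_ne_zero.mpr hne
  have a00 : (M 0 0 + M 1 1 - t) * M 0 0 = 0 := by linear_combination h00 + hdet
  have a01 : (M 0 0 + M 1 1 - t) * M 0 1 = 0 := by linear_combination h01
  have b00 := (mul_eq_zero.mp a00).resolve_left hne'
  have b01 := (mul_eq_zero.mp a01).resolve_left hne'
  exact hd (by rw [← hdet, b00, b01]; ring)

end TwoByTwo

theorem eq_zero_of_forall_mem_maximalIdeal_pow {O : Type*} [CommRing O] [IsLocalRing O]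
    [IsNoetherianRing O] {x : O} (h : ∀ n : ℕ, x ∈ IsLocalRing.maximalIdeal O ^ n) : x = 0 := by
  have hbot := Ideal.iInf_pow_eq_bot_of_isLocalRing (IsLocalRing.maximalIdeal O)
    (IsLocalRing.maximalIdeal.isMaximal O).ne_top
  rw [← Ideal.mem_bot, ← hbot]
  exact Submodule.mem_iInf _ |>.mpr h

theorem repr_mem_of_mem_smul_top {O V ι : Type*} [CommRing O] [AddCommGroup V] [Module O V]
    (b : Module.Basis ι O V) (I : Ideal O) {v : V} (hv : v ∈ I • (⊤ : Submodule O V)) (i : ι) :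
    b.repr v i ∈ I := by
  refine Submodule.smul_induction_on (p := fun v => b.repr v i ∈ I) hv ?_ ?_
  · intro r hr w _
    rw [map_smul, Finsupp.smul_apply, smul_eq_mul]
    exact I.mul_mem_right _ hr
  · intro u w hu hw
    rw [map_add, Finsupp.add_apply]
    exact I.add_mem hu hw

theorem modEq_maximalIdeal_pow_of_toZModPow {p : ℕ} [Fact p.Prime] {O : Type*} [CommRing O]
    [IsLocalRing O] [Algebra ℤ_[p] O] (hp : (p : O) ∈ IsLocalRing.maximalIdeal O) {n : ℕ}
    {u v : ℤ_[p]} (h : PadicInt.toZModPow n u = PadicInt.toZModPow n v) :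
    algebraMap ℤ_[p] O u - algebraMap ℤ_[p] O v ∈ IsLocalRing.maximalIdeal O ^ n := by
  rw [← map_sub]
  have hmem : u - v ∈ RingHom.ker (PadicInt.toZModPow (p := p) n) := by
    rw [RingHom.mem_ker, map_sub, h, sub_self]
  rw [PadicInt.ker_toZModPow, Ideal.mem_span_singleton'] at hmem
  obtain ⟨w, hw⟩ := hmem
  rw [← hw, map_mul, map_pow, map_natCast]
  exact Ideal.mul_mem_left _ _ (Ideal.pow_mem_pow hp n)

variable {p : ℕ} [Fact p.Prime] {O : Type} [CommRing O] [IsDomain O] [IsLocalRing O]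
  [IsNoetherianRing O] [CharZero O] [Algebra ℤ_[p] O]

theorem exists_galois_level (hp : (p : O) ∈ IsLocalRing.maximalIdeal O) (ρ : GaloisRepAdic O)
    (n : ℕ) :
    ∃ L : IntermediateField ℚ (AlgebraicClosure ℚ), FiniteDimensional ℚ L ∧ IsGalois ℚ L ∧
      ∀ g : Γℚ, (∀ x ∈ L, g x = x) →
        (∀ v, ρ.ρ g v - v ∈ (IsLocalRing.maximalIdeal O ^ n) • (⊤ : Submodule O ρ.V)) ∧
        ∀ s : Γℚ, algebraMap ℤ_[p] O (cycloPadic p (s * g)) - algebraMap ℤ_[p] O (cycloPadic p s)
          ∈ IsLocalRing.maximalIdeal O ^ n := by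
  obtain ⟨L, hL, hL'⟩ := ρ.isAdicContinuous n
  haveI : Normal ℚ (AlgebraicClosure ℚ) := normal_qbar
  haveI : NeZero (p ^ n) := ⟨pow_ne_zero _ (Fact.out (p := p.Prime)).ne_zero⟩
  obtain ⟨ζ, hζ⟩ := HasEnoughRootsOfUnity.exists_primitiveRoot (AlgebraicClosure ℚ) (p ^ n)
  haveI : FiniteDimensional ℚ ℚ⟮ζ⟯ :=
    IntermediateField.adjoin.finiteDimensional (Algebra.IsIntegral.isIntegral ζ)
  haveI := hL
  let M := L ⊔ ℚ⟮ζ⟯
  haveI : FiniteDimensional ℚ M := IntermediateField.finiteDimensional_sup _ _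
  haveI : Algebra.IsSeparable ℚ (IntermediateField.normalClosure ℚ M (AlgebraicClosure ℚ)) :=
    inferInstance
  haveI : Normal ℚ (IntermediateField.normalClosure ℚ M (AlgebraicClosure ℚ)) :=
    normalClosure.normal ℚ M (AlgebraicClosure ℚ)
  refine ⟨IntermediateField.normalClosure ℚ M (AlgebraicClosure ℚ), inferInstance, ⟨⟩,
    fun g hg => ⟨hL' g fun x hx => hg x ?_, fun s => modEq_maximalIdeal_pow_of_toZModPow hp ?_⟩⟩
  · exact M.le_normalClosure ((le_sup_left : L ≤ M) hx)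
  · have hgζ : g ζ = ζ := hg ζ (M.le_normalClosure ((le_sup_right : ℚ⟮ζ⟯ ≤ M)
      (IntermediateField.mem_adjoin_simple_self ℚ ζ)))
    rw [map_mul, map_mul]
    suffices h1 : PadicInt.toZModPow n (cycloPadic p g) = 1 by rw [h1, mul_one]
    show PadicInt.toZModPow n
      (((cyclotomicCharacter (AlgebraicClosure ℚ) p g.toRingEquiv : (ℤ_[p])ˣ)) : ℤ_[p]) = 1
    rw [cyclotomicCharacter.toZModPow]
    symm
    apply modularCyclotomicCharacter.unique
    intro t ht
    have ht' : (t : AlgebraicClosure ℚ) ^ p ^ n = 1 := by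
      rw [← Units.val_pow_eq_pow_val, (mem_rootsOfUnity _ t).mp ht, Units.val_one]
    obtain ⟨i, -, hi⟩ := hζ.eq_pow_of_pow_eq_one ht'
    have hfix : g (t : AlgebraicClosure ℚ) = t := by rw [← hi, map_pow, hgζ]
    rcases n with - | n
    · have ht1 : (t : AlgebraicClosure ℚ) = 1 := by simpa using ht'
      simp [ht1]
    · haveI : Fact (1 < p ^ (n + 1)) :=
        ⟨Nat.one_lt_pow (Nat.succ_ne_zero n) (Fact.out (p := p.Prime)).one_lt⟩
      rw [ZMod.val_one, pow_one]
      exact hfix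

/-- The determinant trick. -/
theorem det_eq_cyclo_and_charpoly (hp : (p : O) ∈ IsLocalRing.maximalIdeal O)
    (ρ : GaloisRepAdic O) (S : Finset ℕ) (hpS : p ∈ S)
    (a : ℕ → O)
    (hquad : ∀ ℓ : ℕ, ℓ.Prime → ℓ ∉ S → ∀ A : ValuationSubring (AlgebraicClosure ℚ),
      A.LiesOverPrime ℓ → ∀ σ : Γℚ, A.IsFrobeniusAt σ ℓ → ∀ v : ρ.V,
        ρ.ρ σ (ρ.ρ σ v) - a ℓ • ρ.ρ σ v + (ℓ : O) • v = 0)
    (hns : ∃ c : Γℚ, ∀ r : O, ρ.ρ c ≠ r • (1 : Module.End O ρ.V)) :
    (∀ s : Γℚ, LinearMap.det (ρ.ρ s) = algebraMap ℤ_[p] O (cycloPadic p s)) ∧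
    ∀ ℓ : ℕ, ℓ.Prime → ℓ ∉ S → ∀ A : ValuationSubring (AlgebraicClosure ℚ),
      A.LiesOverPrime ℓ → ∀ σ : Γℚ, A.IsFrobeniusAt σ ℓ →
        LinearMap.charpoly (ρ.ρ σ) = X ^ 2 - C (a ℓ) * X + C (ℓ : O) := by
  classical
  have hcyc : ∀ ℓ : ℕ, ℓ.Prime → ℓ ∉ S → ∀ A : ValuationSubring (AlgebraicClosure ℚ),
      A.LiesOverPrime ℓ → ∀ σ : Γℚ, A.IsFrobeniusAt σ ℓ → cycloPadic p σ = (ℓ : ℤ_[p]) :=
    fun ℓ hℓ hℓS A hA σ hσ => FLTA.Galois.cyclotomicCharacter_frobenius p hℓ
      (fun h => hℓS (h ▸ hpS)) hA hσ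
  let b := Module.finBasisOfFinrankEq O ρ.V ρ.finrank_eq
  let R : Γℚ → Matrix (Fin 2) (Fin 2) O := fun s => LinearMap.toMatrixAlgEquiv b (ρ.ρ s)
  let c : Γℚ →* O := (algebraMap ℤ_[p] O).toMonoidHom.comp (cycloPadic p)
  have Rmul : ∀ s t, R (s * t) = R s * R t := fun s t => by simp [R, map_mul]
  have Rone : R 1 = 1 := by simp [R]
  have hR : ∀ ℓ : ℕ, ℓ.Prime → ℓ ∉ S → ∀ A : ValuationSubring (AlgebraicClosure ℚ),
      A.LiesOverPrime ℓ → ∀ σ : Γℚ, A.IsFrobeniusAt σ ℓ →
        R σ * R σ - a ℓ • R σ + (ℓ : O) • (1 : Matrix (Fin 2) (Fin 2) O) = 0 := by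
    intro ℓ h1 h2 A hA σ hσ
    have h : ρ.ρ σ * ρ.ρ σ - a ℓ • ρ.ρ σ + (ℓ : O) • (1 : Module.End O ρ.V) = 0 :=
      LinearMap.ext fun v => hquad ℓ h1 h2 A hA σ hσ v
    have := congrArg (LinearMap.toMatrixAlgEquiv b) h
    simpa [R, map_add, map_sub, map_smul] using this
  have key : ∀ s : Γℚ, ∃ t : O, R s + c s • R s⁻¹ = t • (1 : Matrix (Fin 2) (Fin 2) O) := by
    intro s
    have approx : ∀ n : ℕ, ∃ t : O, ∀ i j, (R s + c s • R s⁻¹) i j -
        (t • (1 : Matrix (Fin 2) (Fin 2) O)) i j ∈ IsLocalRing.maximalIdeal O ^ n := by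
      intro n
      obtain ⟨L, hL, hLg, hfix⟩ := exists_galois_level hp ρ n
      haveI := hL
      obtain ⟨ℓ, hℓ, hℓS, A, hA, τ, hτ, k, hk⟩ := FLTA.Density.exists_frobenius_pow_eq L S s
      have hquadτ := hR ℓ hℓ hℓS A hA τ hτ
      have hcτ : c τ = (ℓ : O) := by simp [c, hcyc ℓ hℓ hℓS A hA τ hτ]
      have hinv1 : R τ * R τ⁻¹ = 1 := by rw [← Rmul, mul_inv_cancel, Rone]
      have hinv2 : R τ⁻¹ * R τ = 1 := by rw [← Rmul, inv_mul_cancel, Rone]
      have hsum : R τ + (ℓ : O) • R τ⁻¹ = a ℓ • (1 : Matrix (Fin 2) (Fin 2) O) := by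
        have := congrArg (· * R τ⁻¹) hquadτ
        simp only [add_mul, sub_mul, smul_mul_assoc, mul_assoc, hinv1, mul_one, one_mul,
          zero_mul] at this
        rw [sub_add_eq_add_sub, sub_eq_zero] at this
        exact this
      obtain ⟨t, ht⟩ := exists_smul_one_pow_add _ _ (a ℓ) (ℓ : O) hinv1 hinv2 hsum k
      refine ⟨t, ?_⟩
      have hRpow : ∀ g : Γℚ, ∀ m : ℕ, R (g ^ m) = R g ^ m := fun g m => by simp [R, map_pow]
      have hkk : R (τ ^ k) + c (τ ^ k) • R (τ ^ k)⁻¹ = t • (1 : Matrix (Fin 2) (Fin 2) O) := by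
        rw [hRpow, ← inv_pow, hRpow, map_pow, hcτ, ht]
      rw [← hkk]
      have hg : ∀ x ∈ L, (s⁻¹ * τ ^ k) x = x := fun x hx => by
        rw [AlgEquiv.mul_apply, hk x hx]; exact s.symm_apply_apply x
      obtain ⟨-, hgc⟩ := hfix _ hg
      have hcs : c (τ ^ k) - c s ∈ IsLocalRing.maximalIdeal O ^ n := by
        have h := hgc s
        rw [mul_inv_cancel_left] at h
        exact h
      have hclose : ∀ u g : Γℚ, (∀ x ∈ L, g x = x) → ∀ i j,
          R (u * g) i j - R u i j ∈ IsLocalRing.maximalIdeal O ^ n := by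
        intro u g hg i j
        have h1 := (hfix g hg).1 (b j)
        have h2 : ρ.ρ u (ρ.ρ g (b j) - b j) ∈
            (IsLocalRing.maximalIdeal O ^ n) • (⊤ : Submodule O ρ.V) := by
          refine Submodule.smul_induction_on (p := fun v => ρ.ρ u v ∈
            (IsLocalRing.maximalIdeal O ^ n) • (⊤ : Submodule O ρ.V)) h1 ?_ ?_
          · intro r hr w _
            rw [map_smul]
            exact Submodule.smul_mem_smul hr trivial
          · intro v w hv hw
            rw [map_add]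
            exact Submodule.add_mem _ hv hw
        have h3 := repr_mem_of_mem_smul_top b _ h2 i
        simpa [R, LinearMap.toMatrixAlgEquiv_apply, map_mul, map_sub, Module.End.mul_apply] using h3
      intro i j
      have d1 := hclose s _ hg i j
      rw [mul_inv_cancel_left] at d1
      -- `s⁻¹` versus `(τ ^ k)⁻¹`: differ on the left by an element fixing `L`
      have hnorm : ∀ x ∈ L, (s * (τ ^ k)⁻¹) x = x := by
        intro x hx
        haveI := hLg
        haveI : Normal ℚ L := hLg.to_normal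
        haveI : Normal ℚ (AlgebraicClosure ℚ) := normal_qbar
        have hx' : (τ ^ k)⁻¹ x ∈ L :=
          IntermediateField.normal_iff_forall_map_le'.mp (inferInstance : Normal ℚ L) (τ ^ k)⁻¹
            ⟨x, hx, rfl⟩
        rw [AlgEquiv.mul_apply, ← hk _ hx']
        exact (τ ^ k).apply_symm_apply x
      have d2 := hclose s⁻¹ _ hnorm i j
      rw [inv_mul_cancel_left] at d2
      simp only [Matrix.add_apply, Matrix.smul_apply, smul_eq_mul]
      have e : R s i j + c s * R s⁻¹ i j - (R (τ ^ k) i j + c (τ ^ k) * R (τ ^ k)⁻¹ i j) =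
          -(R (τ ^ k) i j - R s i j) + -((c (τ ^ k) - c s) * R (τ ^ k)⁻¹ i j)
            + -(c s * (R (τ ^ k)⁻¹ i j - R s⁻¹ i j)) := by ring
      rw [e]
      exact Ideal.add_mem _ (Ideal.add_mem _ (neg_mem d1) (neg_mem (Ideal.mul_mem_right _ _ hcs)))
        (neg_mem (Ideal.mul_mem_left _ _ d2))
    set M := R s + c s • R s⁻¹ with hM
    refine ⟨M 1 1, Matrix.ext fun i j => sub_eq_zero.mp
      (eq_zero_of_forall_mem_maximalIdeal_pow fun n => ?_)⟩
    obtain ⟨t, ht⟩ := approx n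
    have h11 := ht 1 1
    have hij := ht i j
    by_cases hij' : i = j
    · subst hij'
      simp [Matrix.smul_apply] at h11 hij ⊢
      simpa using Ideal.sub_mem _ hij h11
    · simpa [Matrix.smul_apply, Matrix.one_apply_ne hij'] using hij
  have hdetR : ∀ s, LinearMap.det (ρ.ρ s) = (R s).det := fun s =>
    (LinearMap.det_toMatrix b _).symm
  have alt : ∀ s, (∃ r : O, R s = r • (1 : Matrix (Fin 2) (Fin 2) O)) ∨ (R s).det = c s := by
    intro s
    obtain ⟨t, ht⟩ := key s
    have h : R s * R s - t • R s + c s • (1 : Matrix (Fin 2) (Fin 2) O) = 0 := by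
      have e := congrArg (R s * ·) ht
      simp only [mul_add, mul_smul_comm, mul_one, ← Rmul, mul_inv_cancel, Rone] at e
      rw [← Rmul, ← e]
      abel
    rcases scalar_or_eq_of_quadratic _ _ _ h with h | ⟨-, h⟩
    · exact Or.inl h
    · exact Or.inr h.symm
  obtain ⟨c₀, hc₀⟩ := hns
  have hc₀' : ∀ r : O, R c₀ ≠ r • (1 : Matrix (Fin 2) (Fin 2) O) := fun r hr => hc₀ r <| by
    apply (LinearMap.toMatrixAlgEquiv b).injective
    simpa [R, map_smul] using hr
  have hd₀ : (R c₀).det = c c₀ := (alt c₀).resolve_left fun ⟨r, hr⟩ => hc₀' r hr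
  have hall : ∀ s, (R s).det = c s := by
    intro s
    rcases alt s with ⟨r, hr⟩ | h
    · rcases alt (s * c₀) with ⟨r', hr'⟩ | h'
      · exfalso
        rw [Rmul, hr, smul_mul_assoc, one_mul] at hr'
        have hr0 : r ≠ 0 := by
          intro h0
          have h2 : R s * R s⁻¹ = 1 := by rw [← Rmul, mul_inv_cancel, Rone]
          rw [hr, h0, zero_smul, zero_mul] at h2
          exact zero_ne_one h2
        have e01 := congrFun (congrFun hr' 0) 1
        have e10 := congrFun (congrFun hr' 1) 0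
        have e00 := congrFun (congrFun hr' 0) 0
        have e11 := congrFun (congrFun hr' 1) 1
        simp [hr0] at e01 e10 e00 e11
        refine hc₀' (R c₀ 1 1) (Matrix.ext fun i j => ?_)
        fin_cases i <;> fin_cases j <;> simp [e01, e10]
        exact mul_left_cancel₀ hr0 (e00.trans e11.symm)
      · have hc0ne : (R c₀).det ≠ 0 := by
          intro h0
          have h2 : R c₀ * R c₀⁻¹ = 1 := by rw [← Rmul, mul_inv_cancel, Rone]
          simpa [h0] using congrArg Matrix.det h2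
        rw [Rmul, Matrix.det_mul, map_mul, ← hd₀] at h'
        exact mul_right_cancel₀ hc0ne h'
    · exact h
  refine ⟨fun s => by rw [hdetR, hall]; rfl, fun ℓ hℓ hℓS A hA σ hσ => ?_⟩
  have hdet : (R σ).det = (ℓ : O) := by
    rw [hall]; simp [c, hcyc ℓ hℓ hℓS A hA σ hσ]
  have htr := trace_eq_of_quadratic_of_det_eq _ _ _ (Nat.cast_ne_zero.mpr hℓ.ne_zero) hdet
    (hR ℓ hℓ hℓS A hA σ hσ)
  rw [← LinearMap.charpoly_toMatrix (ρ.ρ σ) b]
  show (R σ).charpoly = _
  rw [Matrix.charpoly_fin_two, htr, hdet]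

end FLTA.GaloisReps
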