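import Fermat.Agent.GaloisReps.TateConstructLattice
import Fermat.Agent.Periods.IntegralStructure
import Mathlib.Algebra.MvPolynomial.Funext

/-!
# Hecke eigenplanes in the parabolic lattice

From a pair `ep, em` of lattice vectors fixed / negated by the involution and generating a full
rank free Hecke submodule, every eigenspace over a field of characteristic zero is a plane on
which the involution is not a scalar.
-/

set_option autoImplicit false

noncomputable section

open CongruenceSubgroup
open scoped MatrixGroups Matrix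
open FLTA.Gamma0 (homRank)
open FLTA.Periods
open ModularFormClass (qCoeff)

namespace FLTA.GaloisReps

variable (N : ℕ) [NeZero N]

/-- A pair of lattice vectors generating a free Hecke submodule of full rank, fixed resp. negated
by the involution. -/
structure CyclicPair where
  ep : parQuot (Gamma0 N)
  em : parQuot (Gamma0 N)
  invol_ep : parInvol N ep = ep
  invol_em : parInvol N em = -em
  injective : ∀ a b : FullHecke N, heckeQuot N a ep + heckeQuot N b em = 0 → a = 0 ∧ b = 0
  rank_eq : Module.finrank ℤ (parQuot (Gamma0 N)) = 2 * Module.finrank ℤ (FullHecke N)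

/-- A matrix pencil with a complex point of nonzero determinant has an integer such point. -/
theorem exists_int_pencil_det_ne_zero {ι κ : Type*} [Fintype ι] [DecidableEq ι] [Fintype κ]
    (A : ι → ι → κ → ℂ) (z : κ → ℂ)
    (h : (Matrix.of fun i j => ∑ k, z k * A i j k).det ≠ 0) :
    ∃ x : κ → ℤ, (Matrix.of fun i j => ∑ k, (x k : ℂ) * A i j k).det ≠ 0 := by
  classical
  let P : Matrix ι ι (MvPolynomial κ ℂ) :=
    Matrix.of fun i j => ∑ k, MvPolynomial.C (A i j k) * MvPolynomial.X k
  have heval : ∀ w : κ → ℂ,
      MvPolynomial.eval w P.det = (Matrix.of fun i j => ∑ k, w k * A i j k).det := by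
    intro w
    rw [RingHom.map_det]
    refine congrArg Matrix.det (Matrix.ext fun i j => ?_)
    simp [P, mul_comm]
  by_contra hx
  push Not at hx
  refine h ?_
  have h0 : P.det = 0 := by
    refine MvPolynomial.funext_set (fun _ => Set.range (Int.cast : ℤ → ℂ))
      (fun _ => Set.infinite_range_of_injective Int.cast_injective) fun w hw => ?_
    choose x hx' using fun k => hw k (Set.mem_univ k)
    rw [map_zero, heval, ← funext hx']
    exact hx x
  rw [← heval, h0, map_zero]

/-- Evaluation at the basis of the lattice. -/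
def evalBasisEquiv : (parQuot (Gamma0 N) →+ ℂ) ≃ₗ[ℂ] (Fin (homRank N) → ℂ) where
  toFun u := fun i => u (latBasis N i)
  invFun w := ((latBasis N).constr ℤ w).toAddMonoidHom
  map_add' _ _ := rfl
  map_smul' _ _ := rfl
  left_inv u := by
    have h : (latBasis N).constr ℤ (fun i => u (latBasis N i)) = u.toIntLinearMap :=
      (latBasis N).ext fun i => by simp
    exact congrArg LinearMap.toAddMonoidHom h
  right_inv w := by funext i; simp

theorem finrank_parQuot :
    Module.finrank ℤ (parQuot (Gamma0 N)) = 2 * Module.finrank ℤ (FullHecke N) := by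
  have h := ((pairQuot N).trans (evalBasisEquiv N)).finrank_eq
  haveI : FiniteDimensional ℂ (CF2 N) := Module.Finite.of_basis (dualForms N)
  rw [Module.finrank_prod, Module.finrank_fin_fun] at h
  rw [Module.finrank_eq_card_basis (latBasis N), Fintype.card_fin, ← h,
    show Module.finrank ℤ (FullHecke N) = Module.finrank ℤ (fullHecke N) from rfl,
    finrank_fullHecke, two_mul]

theorem exists_nondegenerate (j : CF2 N →ₗ[ℂ] CF2 N × CF2 N) (hj : Function.Injective j) :
    ∃ x : parQuot (Gamma0 N), ∀ a : FullHecke N,
      (∀ u : CF2 N, pairQuot N (j ((a : Module.End ℂ (CF2 N)) u)) x = 0) → a = 0 := by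
  classical
  let J : CF2 N →ₗ[ℂ] (Fin (homRank N) → ℂ) :=
    ((evalBasisEquiv N).toLinearMap.comp (pairQuot N).toLinearMap).comp j
  have hJ : LinearMap.ker J = ⊥ :=
    LinearMap.ker_eq_bot.mpr
      (((evalBasisEquiv N).injective.comp (pairQuot N).injective).comp hj)
  obtain ⟨G, hG⟩ := LinearMap.exists_leftInverse_of_injective J hJ
  let φ : (Fin (homRank N) → ℂ) →ₗ[ℂ] ℂ := (coeffLin N 1).comp G
  let z : Fin (homRank N) → ℂ := fun k => φ (Pi.single k 1)
  have hφ : ∀ u, ∑ k, z k * J u k = qCoeff u 1 := fun u => by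
    have hGu : G (J u) = u := LinearMap.congr_fun hG u
    have h1 : qCoeff u 1 = φ (J u) := by
      show qCoeff u 1 = coeffLin N 1 (G (J u))
      rw [hGu, coeffLin_apply]
    rw [h1]
    conv_rhs => rw [pi_eq_sum_univ' (J u), map_sum]
    refine Finset.sum_congr rfl fun k _ => ?_
    rw [map_smul, smul_eq_mul, mul_comm]
  let A : heckeIndex N → heckeIndex N → Fin (homRank N) → ℂ := fun i i' k =>
    J ((heckeBasis N i : Module.End ℂ (CF2 N)) (dualForms N i')) k
  obtain ⟨x, hx⟩ := exists_int_pencil_det_ne_zero A z (by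
    rw [show (Matrix.of fun i i' => ∑ k, z k * A i i' k) = 1 from Matrix.ext fun i i' => by
      rw [Matrix.of_apply, hφ, qCoeff_one_heckeBasis_dualForms, Matrix.one_apply], Matrix.det_one]
    exact one_ne_zero)
  refine ⟨∑ k, x k • latBasis N k, fun a ha => ?_⟩
  let c : heckeIndex N → ℂ := fun i => ((heckeBasis N).repr a i : ℂ)
  have hc : (Matrix.of fun i i' => ∑ k, (x k : ℂ) * A i i' k).transpose.mulVec c = 0 := by
    funext i'
    have h := ha (dualForms N i')
    rw [map_sum] at h
    simp only [map_zsmul, zsmul_eq_mul] at h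
    rw [Pi.zero_apply, ← h]
    have hJk : ∀ k u, pairQuot N (j u) (latBasis N k) = J u k := fun k u => rfl
    simp only [hJk]
    conv_rhs => rw [← (heckeBasis N).sum_repr a]
    simp only [AddSubmonoidClass.coe_finsetSum, LinearMap.sum_apply, map_sum, Subalgebra.coe_smul,
      LinearMap.smul_apply, map_zsmul, Finset.sum_apply, Pi.smul_apply]
    simp only [zsmul_eq_mul, Finset.mul_sum]
    simp only [Matrix.mulVec, dotProduct, Matrix.transpose_apply, Matrix.of_apply,
      Finset.sum_mul]
    rw [Finset.sum_comm]
    exact Finset.sum_congr rfl fun k _ => Finset.sum_congr rfl fun i _ => by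
      simp only [c, A]; ring
  have h0 : c = 0 := by
    by_contra hne
    exact hx ((Matrix.det_transpose _).symm.trans (Matrix.exists_mulVec_eq_zero_iff.mp ⟨c, hne, hc⟩))
  refine (heckeBasis N).ext_elem fun i => ?_
  rw [map_zero, Finsupp.zero_apply]
  exact Int.cast_eq_zero.mp (congrFun h0 i)

theorem pairQuot_parInvol (f g : CF2 N) (x : parQuot (Gamma0 N)) :
    pairQuot N (f, g) (parInvol N x) = pairQuot N (f, -g) x := by
  rw [pairQuot_neg_snd]; rfl

theorem nonempty_cyclicPair : Nonempty (CyclicPair N) := by
  obtain ⟨x, hx⟩ := exists_nondegenerate N (LinearMap.inl ℂ (CF2 N) (CF2 N)) LinearMap.inl_injective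
  obtain ⟨y, hy⟩ := exists_nondegenerate N (LinearMap.inr ℂ (CF2 N) (CF2 N)) LinearMap.inr_injective
  have hneg : ∀ u z, pairQuot N (0, -u) z = - pairQuot N ((0 : CF2 N), u) z := fun u z => by
    rw [show ((0 : CF2 N), -u) = -(0, u) by simp, map_neg]; rfl
  refine ⟨⟨x + parInvol N x, y - parInvol N y, ?_, ?_, ?_, finrank_parQuot N⟩⟩
  · rw [map_add, parInvol_parInvol, add_comm]
  · rw [map_sub, parInvol_parInvol, neg_sub]
  · intro a b hab
    refine ⟨hx a fun u => ?_, hy b fun u => ?_⟩
    · have h := congrArg (pairQuot N (u, 0)) hab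
      simp only [map_add, map_sub, map_zero, ← parInvol_heckeQuot, pairQuot_parInvol, neg_zero,
        sub_self, add_zero] at h
      have h2 := DFunLike.congr_fun (pairQuot_hecke N a u 0) x
      rw [map_zero] at h2
      rw [LinearMap.inl_apply, h2]
      exact add_self_eq_zero.mp h
    · have h := congrArg (pairQuot N (0, u)) hab
      simp only [map_add, map_sub, map_zero, ← parInvol_heckeQuot, pairQuot_parInvol, hneg,
        add_neg_cancel, zero_add, sub_neg_eq_add] at h
      have h2 := DFunLike.congr_fun (pairQuot_hecke N b 0 u) y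
      rw [map_zero] at h2
      rw [LinearMap.inr_apply, h2]
      exact add_self_eq_zero.mp h

variable {N}

namespace CyclicPair

variable (c : CyclicPair N)

/-- `(a, b) ↦ a·ep + b·em`. -/
def map : FullHecke N × FullHecke N →ₗ[ℤ] parQuot (Gamma0 N) :=
  (((LinearMap.applyₗ c.ep).comp (heckeQuot N).toIntAlgHom.toLinearMap).coprod
    ((LinearMap.applyₗ c.em).comp (heckeQuot N).toIntAlgHom.toLinearMap))

theorem map_apply (a b : FullHecke N) :
    c.map (a, b) = heckeQuot N a c.ep + heckeQuot N b c.em :=
  rfl

theorem map_injective : Function.Injective c.map := by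
  rw [injective_iff_map_eq_zero]
  rintro ⟨a, b⟩ h
  obtain ⟨ha, hb⟩ := c.injective a b h
  exact Prod.ext ha hb

theorem exists_nsmul_mem_range :
    ∃ m : ℤ, m ≠ 0 ∧ ∀ x : parQuot (Gamma0 N), m • x ∈ LinearMap.range c.map := by
  haveI : Module.Finite ℤ (FullHecke N) := inferInstanceAs (Module.Finite ℤ (fullHecke N))
  haveI : Module.Free ℤ (FullHecke N) := inferInstanceAs (Module.Free ℤ (fullHecke N))
  have hq : Module.finrank ℤ (parQuot (Gamma0 N) ⧸ LinearMap.range c.map) = 0 := by
    have h1 := Submodule.finrank_quotient_add_finrank (LinearMap.range c.map)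
    rw [LinearMap.finrank_range_of_inj c.map_injective, c.rank_eq, Module.finrank_prod] at h1
    omega
  rw [Module.finrank_eq_zero_iff_isTorsion] at hq
  obtain ⟨a, ha, h⟩ := (Submodule.annihilator_top_inter_nonZeroDivisors hq)
  refine ⟨a, nonZeroDivisors.ne_zero h, fun x => ?_⟩
  have := Submodule.mem_annihilator.mp ha (Submodule.Quotient.mk x) Submodule.mem_top
  rwa [← Submodule.Quotient.mk_smul, Submodule.Quotient.mk_eq_zero] at this

theorem map_hecke (t : FullHecke N) (q : FullHecke N × FullHecke N) :
    c.map (t * q.1, t * q.2) = heckeQuot N t (c.map q) := by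
  rw [map_apply, show c.map q = heckeQuot N q.1 c.ep + heckeQuot N q.2 c.em from rfl]
  simp [map_mul, Module.End.mul_apply]

variable {K : Type} [Field K]

/-- Value of the functional with coordinates `v` at a lattice vector. -/
def pairing (v : Fin (homRank N) → K) : parQuot (Gamma0 N) →ₗ[ℤ] K :=
  (latBasis N).constr ℤ v

theorem pairing_latVec (v : Fin (homRank N) → K) :
    (fun i => pairing v (latVec N i)) = v := by
  funext i
  rw [← latBasis_apply, pairing, Module.Basis.constr_basis]

theorem mulVec_pairing (M : Module.End ℤ (parQuot (Gamma0 N))) (v : Fin (homRank N) → K)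
    (x : parQuot (Gamma0 N)) :
    pairing ((latMat N M).map (Int.cast : ℤ → K) *ᵥ v) x = pairing v (M x) := by
  have h : pairing ((latMat N M).map (Int.cast : ℤ → K) *ᵥ v) = (pairing v).comp M := by
    refine (latBasis N).ext fun i => ?_
    rw [pairing, Module.Basis.constr_basis, LinearMap.comp_apply, latBasis_apply]
    have h := congrFun (latMat_mulVec N M (pairing v).toAddMonoidHom) i
    rw [show (fun j => (pairing v).toAddMonoidHom (latVec N j)) = v from pairing_latVec v] at h
    exact h
  rw [h]; rfl

theorem pairing_eigen {χ : FullHecke N →+* K} {v : Fin (homRank N) → K}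
    (hv : v ∈ matEigenspace (fun t => heckeMat N t) (fun t => χ t)) (t : FullHecke N)
    (x : parQuot (Gamma0 N)) : pairing v (heckeQuot N t x) = χ t * pairing v x := by
  have h := mulVec_pairing (heckeQuot N t) v x
  rw [show (latMat N (heckeQuot N t)).map (Int.cast : ℤ → K) *ᵥ v = χ t • v from hv t] at h
  rw [← h]
  simp [pairing, Module.Basis.constr_apply_fintype, Finset.mul_sum, mul_left_comm]

theorem pairing_map {χ : FullHecke N →+* K} {v : Fin (homRank N) → K}
    (hv : v ∈ matEigenspace (fun t => heckeMat N t) (fun t => χ t))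
    (q : FullHecke N × FullHecke N) :
    pairing v (c.map q) = χ q.1 * pairing v c.ep + χ q.2 * pairing v c.em := by
  rw [show c.map q = heckeQuot N q.1 c.ep + heckeQuot N q.2 c.em from rfl, map_add,
    pairing_eigen hv, pairing_eigen hv]

variable [CharZero K]

/-- The two values `(v(ep), v(em))`. -/
def values : (Fin (homRank N) → K) →ₗ[K] K × K where
  toFun v := (pairing v c.ep, pairing v c.em)
  map_add' v w := by simp [pairing, map_add]
  map_smul' a v := by
    simp [pairing, Module.Basis.constr_apply_fintype, Finset.mul_sum, mul_left_comm]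

theorem eigen_bijective (χ : FullHecke N →+* K) :
    Function.Bijective (c.values.comp
      (matEigenspace (fun t => heckeMat N t) (fun t => χ t)).subtype) := by
  obtain ⟨m, hm, hmem⟩ := c.exists_nsmul_mem_range
  have hmK : (m : K) ≠ 0 := Int.cast_ne_zero.mpr hm
  constructor
  · rw [injective_iff_map_eq_zero]
    rintro ⟨v, hv⟩ h
    refine Subtype.ext ?_
    show v = 0
    rw [← pairing_latVec v]
    funext i
    obtain ⟨q, hq⟩ := hmem (latVec N i)
    have h1 : pairing v c.ep = 0 := congrArg Prod.fst h
    have h2 : pairing v c.em = 0 := congrArg Prod.snd h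
    have h3 := c.pairing_map hv q
    rw [hq, h1, h2, mul_zero, mul_zero, add_zero, map_zsmul, zsmul_eq_mul] at h3
    exact (mul_eq_zero.mp h3).resolve_left hmK
  · rintro ⟨α, β⟩
    let e := LinearEquiv.ofInjective c.map c.map_injective
    let mx : parQuot (Gamma0 N) →ₗ[ℤ] LinearMap.range c.map :=
      LinearMap.codRestrict _ (m • LinearMap.id) (fun x => hmem x)
    let g : FullHecke N × FullHecke N →ₗ[ℤ] K :=
      { toFun := fun q => (m : K)⁻¹ * (χ q.1 * α + χ q.2 * β)
        map_add' := fun q q' => by simp [map_add]; ring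
        map_smul' := fun n q => by simp [map_zsmul]; ring }
    let u : parQuot (Gamma0 N) →ₗ[ℤ] K := g.comp (e.symm.toLinearMap.comp mx)
    have hu : ∀ x q, c.map q = m • x → u x = g q := fun x q h => by
      have h2 : e q = mx x := Subtype.ext h
      show g (e.symm (mx x)) = g q
      rw [← h2, LinearEquiv.symm_apply_apply]
    have hut : ∀ t x, u (heckeQuot N t x) = χ t * u x := by
      intro t x
      obtain ⟨q, hq⟩ := hmem x
      rw [hu x q hq, hu (heckeQuot N t x) (t * q.1, t * q.2)
        (by rw [c.map_hecke, hq, map_zsmul])]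
      show (m : K)⁻¹ * (χ (t * q.1) * α + χ (t * q.2) * β) = _ * ((m : K)⁻¹ * _)
      rw [map_mul, map_mul]; ring
    have hpu : pairing (fun i => u (latVec N i)) = u := by
      refine (latBasis N).ext fun i => ?_
      rw [pairing, Module.Basis.constr_basis, latBasis_apply]
    refine ⟨⟨fun i => u (latVec N i), fun t => ?_⟩, ?_⟩
    · show (latMat N (heckeQuot N t)).map (Int.cast : ℤ → K) *ᵥ
          (fun i => u.toAddMonoidHom (latVec N i)) = χ t • fun i => u (latVec N i)
      rw [latMat_mulVec]
      exact funext fun i => hut t (latVec N i)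
    · show (pairing (fun i => u (latVec N i)) c.ep, pairing (fun i => u (latVec N i)) c.em) = (α, β)
      rw [hpu, hu c.ep (m • (1 : FullHecke N), 0) (by simp [map_apply]),
        hu c.em (0, m • (1 : FullHecke N)) (by simp [map_apply])]
      show ((m : K)⁻¹ * (χ (m • 1) * α + χ 0 * β), (m : K)⁻¹ * (χ 0 * α + χ (m • 1) * β)) = _
      simp [hmK]

end CyclicPair

variable (N) (K : Type) [Field K] [CharZero K]

theorem finrank_matEigenspace_heckeMat (χ : FullHecke N →+* K) :
    Module.finrank K (matEigenspace (fun t => heckeMat N t) (fun t => χ t)) = 2 := by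
  obtain ⟨c⟩ := nonempty_cyclicPair N
  rw [(LinearEquiv.ofBijective _ (c.eigen_bijective χ)).finrank_eq, Module.finrank_prod,
    Module.finrank_self]

theorem exists_conjLatMat_ne_smul (χ : FullHecke N →+* K) (a : K) :
    ∃ v ∈ matEigenspace (fun t => heckeMat N t) (fun t => χ t),
      (conjLatMat N).map (Int.cast : ℤ → K) *ᵥ v ≠ a • v := by
  obtain ⟨c⟩ := nonempty_cyclicPair N
  by_contra h
  push Not at h
  obtain ⟨v, hv⟩ := (c.eigen_bijective χ).2 (1, 1)
  have h1 : CyclicPair.pairing (K := K) v.1 c.ep = 1 := congrArg Prod.fst hv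
  have h2 : CyclicPair.pairing (K := K) v.1 c.em = 1 := congrArg Prod.snd hv
  have hp : ∀ x, CyclicPair.pairing (K := K) ((conjLatMat N).map (Int.cast : ℤ → K) *ᵥ v.1) x =
      a * CyclicPair.pairing (K := K) v.1 x := fun x => by
    rw [h v.1 v.2]
    simp [CyclicPair.pairing, Module.Basis.constr_apply_fintype, Finset.mul_sum, mul_left_comm]
  have hep := hp c.ep
  have hem := hp c.em
  rw [conjLatMat, CyclicPair.mulVec_pairing] at hep hem
  simp only [LinearMap.neg_apply, AddMonoidHom.coe_toIntLinearMap, c.invol_ep, c.invol_em, map_neg,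
    h1, h2, mul_one, neg_neg] at hep hem
  exact (by norm_num : (-1 : K) ≠ 1) (hep.trans hem.symm)

end FLTA.GaloisReps

end
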