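import Fermat.Agent.GaloisReps.TateData
import Fermat.Agent.GaloisReps.TateConstructTorsion
import Fermat.Agent.GaloisReps.TateConstructPlane
import Fermat.Agent.Congruence.Torsion

/-!
# Construction of the Tate module data
-/

set_option autoImplicit false

noncomputable section

open ModularCurve AlgebraicCurve
open scoped Matrix
open FLTA.Gamma0 (homRank)
open FLTA.Kummer (JTors)

namespace FLTA.GaloisReps

variable (N : ℕ) [NeZero N] (p : ℕ) [Fact p.Prime]

local instance instNeZeroPrimePow (k : ℕ) : NeZero (p ^ k) :=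
  ⟨pow_ne_zero _ (Fact.out (p := p.Prime)).ne_zero⟩

theorem nsmul_jTors {n : ℕ} (x : JTors N n) : n • (x : JZero N) = 0 := by
  rw [← natCast_zsmul]
  exact Pic0.mem_torsion.mp x.2

theorem not_dvd_pow_of_ne {ℓ : ℕ} (hℓ : ℓ.Prime) (hℓp : ℓ ≠ p) (k : ℕ) : ¬ ℓ ∣ p ^ k :=
  fun h => hℓp ((Nat.prime_dvd_prime_iff_eq hℓ Fact.out).mp (hℓ.dvd_of_dvd_pow h))

theorem tateRho_unramified {q : ℕ} (hq : q.Prime) (hqN : ¬ q ∣ N) (hqp : q ≠ p)
    (A : ValuationSubring (AlgebraicClosure ℚ)) (hA : A.LiesOverPrime q) {σ : GalQ}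
    (hσ : σ ∈ A.inertiaSubgroupIn ℚ) : tateRho N p σ = 1 :=
  matrix_ext_of_toZModPow fun k => by
    rw [map_tateRho, Matrix.map_one _ (map_zero _) (map_one _), galMat_eq_one_iff]
    intro x
    exact FLTA.Congruence.smul_eq_of_mem_inertia hq hqN hA (not_dvd_pow_of_ne p hq hqp k) hσ
      (nsmul_jTors N x)

set_option maxHeartbeats 1000000 in
theorem galMat_frobenius (n : ℕ) [NeZero n] {ℓ : ℕ} (hℓ : ℓ.Prime) (hℓN : ¬ ℓ ∣ N)
    (hn : ¬ ℓ ∣ n) {A : ValuationSubring (AlgebraicClosure ℚ)} (hA : A.LiesOverPrime ℓ) {σ : GalQ}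
    (hσ : A.IsFrobeniusAt σ ℓ) :
    galMat N n σ * galMat N n σ
      - (heckeMat N (CuspForm.heckeAlgebra.T hℓ hℓN (Set.notMem_empty ℓ))).map
          (Int.cast : ℤ → ZMod n) * galMat N n σ
      + (ℓ : Matrix (Fin (homRank N)) (Fin (homRank N)) (ZMod n)) = 0 := by
  refine matrix_ext_torsCoord fun x => ?_
  rw [Matrix.add_mulVec, Matrix.sub_mulVec, ← Matrix.mulVec_mulVec, ← Matrix.mulVec_mulVec,
    galMat_mulVec, galMat_mulVec, Matrix.zero_mulVec]
  have hmem : ℓ • (x : JZero N) ∈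
      Pic0.torsion (AlgebraicClosure ℚ) (modularFunctionFieldBar N) n :=
    AddSubgroup.nsmul_mem _ x.2 ℓ
  have hT : (heckeMat N (CuspForm.heckeAlgebra.T hℓ hℓN (Set.notMem_empty ℓ))).map
      (Int.cast : ℤ → ZMod n) *ᵥ torsCoord N n (JZero.torsionGaloisRep N n σ x) =
      torsCoord N n ⟨heckeOperatorBar N ⟨ℓ, hℓ⟩
        ((JZero.torsionGaloisRep N n σ x : JTors N n) : JZero N),
        hecke_mem_torsion N n ⟨ℓ, hℓ⟩ _⟩ :=
    latMat_mulVec_torsCoord N n ⟨ℓ, hℓ⟩ (heckeQuot_T_comp hℓ hℓN) _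
  have hl : (ℓ : Matrix (Fin (homRank N)) (Fin (homRank N)) (ZMod n)) *ᵥ torsCoord N n x =
      torsCoord N n ⟨ℓ • (x : JZero N), hmem⟩ := by
    rw [show (⟨ℓ • (x : JZero N), hmem⟩ : JTors N n) = ℓ • x from rfl, map_nsmul,
      Matrix.natCast_mulVec]
    ext i
    simp
  have hzero : JZero.torsionGaloisRep N n σ (JZero.torsionGaloisRep N n σ x) -
      (⟨heckeOperatorBar N ⟨ℓ, hℓ⟩ ((JZero.torsionGaloisRep N n σ x : JTors N n) : JZero N),
        hecke_mem_torsion N n ⟨ℓ, hℓ⟩ _⟩ : JTors N n) + ⟨ℓ • (x : JZero N), hmem⟩ = 0 := by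
    refine Subtype.ext ?_
    simp only [AddSubgroup.coe_add, AddSubgroup.coe_sub, AddSubgroup.coe_zero,
      JZero.coe_torsionGaloisRep_apply]
    have hq : σ • σ • (x : JZero N) - heckeOperatorBar N ⟨ℓ, hℓ⟩ (σ • (x : JZero N)) +
        (ℓ : ℤ) • (x : JZero N) = 0 :=
      FLTA.Congruence.frobenius_quadratic_torsion hℓ hℓN hA hn hσ (nsmul_jTors N x)
    rw [natCast_zsmul] at hq
    exact hq
  rw [hT, hl, ← map_sub, ← map_add, hzero, map_zero]

theorem tateRho_frobenius {ℓ : ℕ} (hℓ : ℓ.Prime) (hℓN : ¬ ℓ ∣ N) (hℓp : ℓ ≠ p)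
    (A : ValuationSubring (AlgebraicClosure ℚ)) (hA : A.LiesOverPrime ℓ) {σ : GalQ}
    (hσ : A.IsFrobeniusAt σ ℓ) :
    tateRho N p σ * tateRho N p σ
      - (heckeMat N (CuspForm.heckeAlgebra.T hℓ hℓN (Set.notMem_empty ℓ))).map
          (Int.cast : ℤ → ℤ_[p]) * tateRho N p σ
      + (ℓ : Matrix (Fin (homRank N)) (Fin (homRank N)) ℤ_[p]) = 0 := by
  refine matrix_ext_of_toZModPow fun k => ?_
  have h := galMat_frobenius N (p ^ k) hℓ hℓN (not_dvd_pow_of_ne p hℓ hℓp k) hA hσ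
  let f : Matrix (Fin (homRank N)) (Fin (homRank N)) ℤ_[p] →+* _ :=
    (PadicInt.toZModPow (p := p) k).mapMatrix
  show f _ = f 0
  rw [map_add, map_sub, map_mul, map_mul, map_natCast, map_zero]
  simp only [f, RingHom.mapMatrix_apply, map_tateRho, map_intCast_toZModPow]
  exact h

/-- The Tate module data. -/
def tateData : TateData N p where
  r := homRank N
  rho := tateRho N p
  hecke := heckeMat N
  conjMat := conjLatMat N
  conj_spec := tateRho_complexConjugation N p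
  isContinuous := isContinuous_tateRho N p
  commute := commute_tateRho N p
  frobenius := fun _ hℓ hℓN hℓp A hA _ hσ => tateRho_frobenius N p hℓ hℓN hℓp A hA hσ
  unramified := fun _ hq hqN hqp A hA _ hσ => tateRho_unramified N p hq hqN hqp A hA hσ
  hecke_injective := heckeMat_injective N
  torsionEquiv := tateTorsionEquiv N p
  torsionEquiv_galois := tateTorsionEquiv_galois N p
  plane := fun K _ _ χ => finrank_matEigenspace_heckeMat N K χ
  conj_not_scalar := fun K _ _ χ a => exists_conjLatMat_ne_smul N K χ a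

theorem exists_tateData (N : ℕ) [NeZero N] (p : ℕ) [Fact p.Prime] :
    Nonempty (TateData N p) :=
  ⟨tateData N p⟩

/-- The integer Hecke matrices compute the Hecke operators on the `p`-power torsion. -/
theorem tateTorsionEquiv_hecke (k : ℕ) {r : ℕ} (hr : r.Prime) (hrN : ¬ r ∣ N)
    (v : Fin (homRank N) → ZMod (p ^ k)) :
    ((tateTorsionEquiv N p k
        ((heckeMat N (CuspForm.heckeAlgebra.T hr hrN (Set.notMem_empty r))).map
          (Int.cast : ℤ → ZMod (p ^ k)) *ᵥ v)) : JZero N) =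
      heckeOperatorBar N ⟨r, hr⟩ (tateTorsionEquiv N p k v : JZero N) := by
  obtain ⟨x, rfl⟩ := (torsCoord N (p ^ k)).surjective v
  have hT : (heckeMat N (CuspForm.heckeAlgebra.T hr hrN (Set.notMem_empty r))).map
      (Int.cast : ℤ → ZMod (p ^ k)) *ᵥ torsCoord N (p ^ k) x =
      torsCoord N (p ^ k) ⟨heckeOperatorBar N ⟨r, hr⟩ (x : JZero N),
        hecke_mem_torsion N (p ^ k) ⟨r, hr⟩ x⟩ :=
    latMat_mulVec_torsCoord N (p ^ k) ⟨r, hr⟩ (heckeQuot_T_comp hr hrN) x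
  rw [hT, coe_tateTorsionEquiv, coe_tateTorsionEquiv, LinearEquiv.symm_apply_apply,
    LinearEquiv.symm_apply_apply]

theorem exists_tateData_hecke (N : ℕ) [NeZero N] (p : ℕ) [Fact p.Prime] :
    ∃ D : TateData N p, ∀ (k r : ℕ) (hr : r.Prime) (hrN : ¬ r ∣ N) (v : Fin D.r → ZMod (p ^ k)),
      ((D.torsionEquiv k
          ((D.hecke (CuspForm.heckeAlgebra.T hr hrN (Set.notMem_empty r))).map
            (Int.cast : ℤ → ZMod (p ^ k)) *ᵥ v)) : JZero N) =
        heckeOperatorBar N ⟨r, hr⟩ (D.torsionEquiv k v : JZero N) :=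
  ⟨tateData N p, fun k _ hr hrN v => tateTorsionEquiv_hecke N p k hr hrN v⟩

end FLTA.GaloisReps
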