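import Fermat.Agent.GaloisReps.Plane
import Fermat.Agent.GaloisReps.DetTrick
import Fermat.Agent.GaloisReps.TateConstruct

/-!
# Galois representations attached to characters of the full Hecke algebra
-/

set_option autoImplicit false

noncomputable section

open IsLocalRing Polynomial

namespace FLTA.GaloisReps

variable (N : ℕ) [NeZero N]

/-- The full Hecke algebra of weight two is a finite `ℤ`-module. -/
theorem module_finite_fullHecke : Module.Finite ℤ (FullHecke N) := by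
  obtain ⟨D⟩ := exists_tateData N 2
  exact Module.Finite.of_injective D.hecke.toAddMonoidHom.toIntLinearMap D.hecke_injective

/-- The full Hecke algebra of weight two is torsion-free. -/
theorem isTorsionFree_fullHecke : Module.IsTorsionFree ℤ (FullHecke N) :=
  inferInstance

variable {N} {p : ℕ} [Fact p.Prime] {O : Type} [CommRing O] [IsDomain O]
  [IsDiscreteValuationRing O] [IsAdicComplete (maximalIdeal O) O] [CharZero O]

/-- **The Galois representation of a Hecke character.** -/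
theorem exists_galoisRepAdic_attached (hp : (p : O) ∈ maximalIdeal O) (χ : FullHecke N →+* O) :
    ∃ ρ : GaloisRepAdic O,
      (∀ (ℓ : ℕ) (hℓ : ℓ.Prime) (hℓN : ¬ ℓ ∣ N), ℓ ≠ p →
        ∀ A : ValuationSubring (AlgebraicClosure ℚ), A.LiesOverPrime ℓ →
          ∀ σ : GalQ, A.IsFrobeniusAt σ ℓ →
            LinearMap.charpoly (ρ.ρ σ) =
              X ^ 2 - C (χ (CuspForm.heckeAlgebra.T hℓ hℓN (Set.notMem_empty ℓ))) * X
                + C (ℓ : O)) ∧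
      (∀ q : ℕ, q.Prime → ¬ q ∣ N → q ≠ p → ρ.IsUnramifiedAt q) ∧
      ∀ σ : GalQ, LinearMap.det (ρ.ρ σ) = padicIntToRing O hp (cycloPadic p σ) := by
  letI : Algebra ℤ_[p] O := padicIntAlgebra O hp
  obtain ⟨D⟩ := exists_tateData N p
  obtain ⟨ρ, hquad, hunr, hns⟩ := exists_galoisRepAdic_quadratic D hp χ
  let a : ℕ → O := fun ℓ =>
    if h : ℓ.Prime ∧ ¬ ℓ ∣ N then χ (CuspForm.heckeAlgebra.T h.1 h.2 (Set.notMem_empty ℓ)) else 0
  let S : Finset ℕ := insert p N.primeFactors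
  have hS : ∀ ℓ : ℕ, ℓ.Prime → (ℓ ∉ S ↔ ¬ ℓ ∣ N ∧ ℓ ≠ p) := fun ℓ hℓ => by
    simp [S, Nat.mem_primeFactors, hℓ, NeZero.ne N, and_comm]
  have ha : ∀ (ℓ : ℕ) (hℓ : ℓ.Prime) (hℓN : ¬ ℓ ∣ N),
      a ℓ = χ (CuspForm.heckeAlgebra.T hℓ hℓN (Set.notMem_empty ℓ)) := fun ℓ hℓ hℓN =>
    dif_pos ⟨hℓ, hℓN⟩
  obtain ⟨hdet, hcp⟩ := det_eq_cyclo_and_charpoly hp ρ S (Finset.mem_insert_self _ _) a
    (fun ℓ hℓ hℓS A hA σ hσ v => by
      obtain ⟨h1, h2⟩ := (hS ℓ hℓ).mp hℓS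
      rw [ha ℓ hℓ h1]
      exact hquad ℓ hℓ h1 h2 A hA σ hσ v)
    ⟨complexConjugation, hns⟩
  refine ⟨ρ, fun ℓ hℓ hℓN hℓp A hA σ hσ => ?_, hunr, hdet⟩
  rw [hcp ℓ hℓ ((hS ℓ hℓ).mpr ⟨hℓN, hℓp⟩) A hA σ hσ, ha ℓ hℓ hℓN]

end FLTA.GaloisReps

end
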