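import Fermat.Agent.Hecke.Eigen

/-!
# The character of the Hecke algebra attached to a normalised eigenform
-/

set_option autoImplicit false

noncomputable section

open ModularFormClass CongruenceSubgroup

namespace FLTA.GaloisReps

variable {N : ℕ} [NeZero N] {S : Set ℕ} {g : CuspForm (Gamma0 N) 2}

theorem exists_eigenvalue (hg : g.IsNormalizedEigenform) (t : CuspForm.heckeAlgebra N 2 S) :
    ∃ c : ℂ, (t : Module.End ℂ (CuspForm (Gamma0 N) 2)) g = c • g := by
  obtain ⟨t, ht⟩ := t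
  show ∃ c : ℂ, t g = c • g
  induction ht using Algebra.adjoin_induction with
  | mem x hx =>
    rcases hx with ⟨ℓ, hℓ, hℓN, -, rfl⟩ | ⟨q, hqN, hq, -, rfl⟩
    · exact ⟨_, FLTA.Hecke.heckeTLin_of_normalized hg hℓ hℓN⟩
    · exact ⟨_, FLTA.Hecke.heckeULin_of_normalized hg hq hqN⟩
  | algebraMap r =>
    refine ⟨(r : ℂ), ?_⟩
    rw [Int.cast_smul_eq_zsmul]
    rfl
  | add x y _ _ hx hy =>
    obtain ⟨a, ha⟩ := hx
    obtain ⟨b, hb⟩ := hy
    exact ⟨a + b, by rw [LinearMap.add_apply, ha, hb, add_smul]⟩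
  | mul x y _ _ hx hy =>
    obtain ⟨a, ha⟩ := hx
    obtain ⟨b, hb⟩ := hy
    exact ⟨a * b, by rw [Module.End.mul_apply, hb, map_smul, ha, smul_smul, mul_comm]⟩

/-- The eigenvalue of a Hecke operator on a normalised eigenform. -/
def eigenValue (hg : g.IsNormalizedEigenform) (t : CuspForm.heckeAlgebra N 2 S) : ℂ :=
  (exists_eigenvalue hg t).choose

theorem eigenValue_spec (hg : g.IsNormalizedEigenform) (t : CuspForm.heckeAlgebra N 2 S) :
    (t : Module.End ℂ (CuspForm (Gamma0 N) 2)) g = eigenValue hg t • g :=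
  (exists_eigenvalue hg t).choose_spec

theorem eigenValue_eq (hg : g.IsNormalizedEigenform) {t : CuspForm.heckeAlgebra N 2 S} {c : ℂ}
    (h : (t : Module.End ℂ (CuspForm (Gamma0 N) 2)) g = c • g) : eigenValue hg t = c :=
  smul_left_injective ℂ (FLTA.Hecke.ne_zero_of_normalized hg) ((eigenValue_spec hg t).symm.trans h)

/-- The eigenvalue character of a normalised eigenform. -/
def eigenCharC (hg : g.IsNormalizedEigenform) : CuspForm.heckeAlgebra N 2 S →+* ℂ where
  toFun := eigenValue hg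
  map_one' := eigenValue_eq hg (by simp)
  map_zero' := eigenValue_eq hg (by simp)
  map_mul' t t' := eigenValue_eq hg (by
    rw [MulMemClass.coe_mul, Module.End.mul_apply, eigenValue_spec hg t', map_smul,
      eigenValue_spec hg t, smul_smul, mul_comm])
  map_add' t t' := eigenValue_eq hg (by
    rw [AddMemClass.coe_add, LinearMap.add_apply, eigenValue_spec hg t, eigenValue_spec hg t',
      add_smul])

theorem eigenCharC_T (hg : g.IsNormalizedEigenform) {ℓ : ℕ} (hℓ : ℓ.Prime) (hℓN : ¬ ℓ ∣ N)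
    (hℓS : ℓ ∉ S) :
    eigenCharC hg (CuspForm.heckeAlgebra.T hℓ hℓN hℓS) = qCoeff g ℓ :=
  eigenValue_eq hg <| by
    rw [CuspForm.heckeAlgebra.coe_T, FLTA.Hecke.heckeTLin_of_normalized hg hℓ hℓN]

/-- The eigenvalue character with values in the algebraic integers. -/
def eigenChar [Module.Finite ℤ (CuspForm.heckeAlgebra N 2 S)] (hg : g.IsNormalizedEigenform) :
    CuspForm.heckeAlgebra N 2 S →+* integralClosure ℤ ℂ :=
  (eigenCharC hg).codRestrict (integralClosure ℤ ℂ) fun t =>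
    map_isIntegral_int (eigenCharC hg) (Algebra.IsIntegral.isIntegral t)

theorem coe_eigenChar_T [Module.Finite ℤ (CuspForm.heckeAlgebra N 2 S)]
    (hg : g.IsNormalizedEigenform) {ℓ : ℕ} (hℓ : ℓ.Prime) (hℓN : ¬ ℓ ∣ N) (hℓS : ℓ ∉ S) :
    (eigenChar hg (CuspForm.heckeAlgebra.T hℓ hℓN hℓS) : ℂ) = qCoeff g ℓ :=
  eigenCharC_T hg hℓ hℓN hℓS

end FLTA.GaloisReps

end
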