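import Fermat.Agent.GaloisReps.Attach
import Fermat.Agent.GaloisReps.EigenChar
import Fermat.Agent.RepTheory.DVRExtension
import Fermat.Prelude.Def_GaloisRep_Residual

/-!
# Residual Galois representations attached to normalised eigenforms
-/

set_option autoImplicit false

noncomputable section

open IsLocalRing Polynomial ModularFormClass

namespace FLTA.GaloisReps

/-- The trivial two-dimensional residual representation. -/
def trivialResidualRep (k : Type) [Field k] : ResidualGaloisRep k where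
  V := Fin 2 → k
  finrank_eq := by simp
  ρ := 1
  factorsThroughFiniteLevel := ⟨⊥, inferInstance, fun _ _ => rfl⟩

theorem charpoly_baseChangeAlong {k k' : Type} [Field k] [Field k'] (j : k →+* k')
    (ρ : ResidualGaloisRep k) (σ : GalQ) :
    LinearMap.charpoly ((ρ.baseChangeAlong j).ρ σ) = (LinearMap.charpoly (ρ.ρ σ)).map j := by
  letI : Algebra k k' := j.toAlgebra
  exact LinearMap.charpoly_baseChange (ρ.ρ σ) k'

theorem charpoly_residual {A : Type} [CommRing A] [IsLocalRing A] (ρ : GaloisRepAdic A)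
    (σ : GalQ) :
    LinearMap.charpoly (ρ.residual.ρ σ) =
      (LinearMap.charpoly (ρ.ρ σ)).map (IsLocalRing.residue A) :=
  LinearMap.charpoly_baseChange (ρ.ρ σ) (IsLocalRing.ResidueField A)

theorem isUnramifiedAt_residual {A : Type} [CommRing A] [IsLocalRing A] {ρ : GaloisRepAdic A}
    {q : ℕ} (h : ρ.IsUnramifiedAt q) : ρ.residual.IsUnramifiedAt q := fun P hP σ hσ => by
  show (ρ.ρ σ).baseChange (IsLocalRing.ResidueField A) = 1
  rw [h P hP σ hσ, LinearMap.baseChange_one]

theorem isUnramifiedAt_baseChangeAlong {k k' : Type} [Field k] [Field k'] (j : k →+* k')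
    {ρ : ResidualGaloisRep k} {q : ℕ} (h : ρ.IsUnramifiedAt q) :
    (ρ.baseChangeAlong j).IsUnramifiedAt q := fun P hP σ hσ => by
  letI : Algebra k k' := j.toAlgebra
  show (ρ.ρ σ).baseChange k' = 1
  rw [h P hP σ hσ, LinearMap.baseChange_one]

/-- **Residual representations of eigenforms**, positive level. -/
theorem exists_residual_attached {N : ℕ} [NeZero N]
    {g : CuspForm (CongruenceSubgroup.Gamma0 N) 2} (hg : g.IsNormalizedEigenform)
    {p : ℕ} [Fact p.Prime] {k : Type} [Field k] [CharP k p] (φ : integralClosure ℤ ℂ →+* k) :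
    ∃ ρ : ResidualGaloisRep k, ρ.IsAttachedTo g φ ∧
      ∀ ℓ : ℕ, ℓ.Prime → ¬ ℓ ∣ N * p → ρ.IsUnramifiedAt ℓ := by
  haveI := module_finite_fullHecke N
  haveI := isTorsionFree_fullHecke N
  obtain ⟨E, χ, j, hj⟩ := FLTA.RepTheory.exists_dvr_lift (p := p)
    (FLTA.RepTheory.nonempty_algebraicClosure_zmod_ringHom φ)
    (φ.comp (eigenChar (S := (∅ : Set ℕ)) hg))
  have hp : (p : E.R) ∈ maximalIdeal E.R := by
    rw [← map_natCast (algebraMap ℤ_[p] E.R)]
    exact map_nonunit _ _ (by rw [PadicInt.maximalIdeal_eq_span_p]; exact Ideal.mem_span_singleton_self _)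
  obtain ⟨ρ, hcp, hunr, -⟩ := exists_galoisRepAdic_attached hp χ
  refine ⟨ρ.residual.baseChangeAlong j, ?_, ?_⟩
  · intro ℓ hℓ hℓN hℓk A hA σ hσ
    have hℓp : ℓ ≠ p := by
      rintro rfl
      exact hℓk (CharP.cast_eq_zero k ℓ)
    refine ⟨eigenChar (S := (∅ : Set ℕ)) hg
      (CuspForm.heckeAlgebra.T hℓ hℓN (Set.notMem_empty ℓ)),
      coe_eigenChar_T hg hℓ hℓN _, ?_⟩
    rw [charpoly_baseChangeAlong, charpoly_residual, hcp ℓ hℓ hℓN hℓp A hA σ hσ,
      Polynomial.map_map]
    simp only [Polynomial.map_add, Polynomial.map_sub, Polynomial.map_mul, Polynomial.map_pow,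
      Polynomial.map_X, Polynomial.map_C, RingHom.comp_apply, map_natCast, Polynomial.map_natCast]
    rw [show j (residue E.R (χ _)) = _ from hj _]
    rfl
  · intro ℓ hℓ hℓNp
    refine isUnramifiedAt_baseChangeAlong j (isUnramifiedAt_residual (hunr ℓ hℓ ?_ ?_))
    · exact fun h => hℓNp (h.mul_right p)
    · rintro rfl
      exact hℓNp (dvd_mul_left ℓ N)

/-- **Residual representations of eigenforms**, every level. -/
theorem exists_residual_attached' {N : ℕ}
    {g : CuspForm (CongruenceSubgroup.Gamma0 N) 2} (hg : g.IsNormalizedEigenform)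
    {p : ℕ} (hp : p.Prime) {k : Type} [Field k] [CharP k p] (φ : integralClosure ℤ ℂ →+* k) :
    ∃ ρ : ResidualGaloisRep k, ρ.IsAttachedTo g φ ∧
      ∀ ℓ : ℕ, ℓ.Prime → ¬ ℓ ∣ N * p → ρ.IsUnramifiedAt ℓ := by
  haveI := Fact.mk hp
  rcases eq_or_ne N 0 with rfl | hN
  · exact ⟨trivialResidualRep k, fun ℓ _ h => absurd (dvd_zero ℓ) h,
      fun ℓ _ h => absurd (by simp) h⟩
  · haveI : NeZero N := ⟨hN⟩
    exact exists_residual_attached hg φ

end FLTA.GaloisReps

end
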