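import Mathlib.NumberTheory.Padics.RingHoms
import Mathlib.RingTheory.AdicCompletion.RingHom
import Mathlib.RingTheory.LocalRing.ResidueField.Basic
import Mathlib.Data.ZMod.QuotientRing

/-!
# The canonical map `ℤ_[p] → O` for a complete local ring with `p` in the maximal ideal
-/

set_option autoImplicit false

noncomputable section

open IsLocalRing

namespace FLTA.GaloisReps

variable {p : ℕ} [Fact p.Prime] (O : Type*) [CommRing O] [IsLocalRing O]

/-- The map `ℤ/pⁿ → O/𝔪ⁿ`. -/
def zmodPowToQuot (hp : (p : O) ∈ maximalIdeal O) (n : ℕ) :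
    ZMod (p ^ n) →+* O ⧸ maximalIdeal O ^ n :=
  (Ideal.Quotient.lift (Ideal.span {((p ^ n : ℕ) : ℤ)}) (Int.castRingHom _) (by
    intro a ha
    obtain ⟨b, rfl⟩ := Ideal.mem_span_singleton'.mp ha
    rw [eq_intCast, Int.cast_mul, Int.cast_natCast,
      ← map_natCast (Ideal.Quotient.mk (maximalIdeal O ^ n)), Ideal.Quotient.eq_zero_iff_mem.mpr,
      mul_zero]
    push_cast
    exact Ideal.pow_mem_pow hp n)).comp
    (Int.quotientSpanNatEquivZMod (p ^ n)).symm.toRingHom

theorem zmodPowToQuot_compat (hp : (p : O) ∈ maximalIdeal O) {m n : ℕ} (hle : m ≤ n) :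
    (Ideal.Quotient.factorPow (maximalIdeal O) hle).comp
        ((zmodPowToQuot O hp n).comp (PadicInt.toZModPow n)) =
      (zmodPowToQuot O hp m).comp (PadicInt.toZModPow m) := by
  rw [← PadicInt.zmod_cast_comp_toZModPow m n hle, ← RingHom.comp_assoc, ← RingHom.comp_assoc]
  exact congrArg (fun φ : ZMod (p ^ n) →+* O ⧸ maximalIdeal O ^ m => φ.comp _)
    (RingHom.ext_zmod _ _)

variable [IsAdicComplete (maximalIdeal O) O]

/-- The canonical ring map `ℤ_[p] → O`. -/
def padicIntToRing (hp : (p : O) ∈ maximalIdeal O) : ℤ_[p] →+* O :=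
  IsAdicComplete.liftRingHom (maximalIdeal O)
    (fun n => (zmodPowToQuot O hp n).comp (PadicInt.toZModPow n))
    (zmodPowToQuot_compat O hp)

theorem mk_padicIntToRing (hp : (p : O) ∈ maximalIdeal O) (n : ℕ) (x : ℤ_[p]) :
    Ideal.Quotient.mk (maximalIdeal O ^ n) (padicIntToRing O hp x) =
      zmodPowToQuot O hp n (PadicInt.toZModPow n x) :=
  IsAdicComplete.mk_liftRingHom (maximalIdeal O)
    (fun n => (zmodPowToQuot O hp n).comp (PadicInt.toZModPow n))
    (zmodPowToQuot_compat O hp) n x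

/-- The resulting algebra structure (not an instance). -/
@[implicit_reducible]
def padicIntAlgebra (hp : (p : O) ∈ maximalIdeal O) : Algebra ℤ_[p] O :=
  (padicIntToRing O hp).toAlgebra

variable {O}

omit [IsAdicComplete (maximalIdeal O) O] in
/-- Any algebra map `ℤ_[p] → O` sends the kernel of `toZModPow n` into `𝔪ⁿ`. -/
theorem algebraMap_mem_pow [Algebra ℤ_[p] O] (hp : (p : O) ∈ maximalIdeal O) {n : ℕ} {x : ℤ_[p]}
    (hx : PadicInt.toZModPow n x = 0) : algebraMap ℤ_[p] O x ∈ maximalIdeal O ^ n := by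
  have h : x ∈ RingHom.ker (PadicInt.toZModPow (p := p) n) := hx
  rw [PadicInt.ker_toZModPow, Ideal.mem_span_singleton] at h
  obtain ⟨y, rfl⟩ := h
  rw [map_mul, map_pow, map_natCast]
  exact Ideal.mul_mem_right _ _ (Ideal.pow_mem_pow hp n)

end FLTA.GaloisReps

end
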