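import Fermat.Agent.GaloisReps.TateData
import Fermat.Agent.GaloisReps.PadicAlgebra
import Fermat.Agent.RepTheory.Lattice

/-!
# The eigenplane of a Hecke character in the Tate module

From `TateData N p` and a character `χ` of the full Hecke algebra with values in a discrete
valuation ring `O` over `ℤ_[p]` we get a rank two Galois lattice on which the Frobenius at
`ℓ ∤ Np` satisfies `X² - χ(T_ℓ) X + ℓ`.
-/

set_option autoImplicit false

noncomputable section

open scoped Matrix
open IsLocalRing

namespace FLTA.GaloisReps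

section Matrices

variable {p : ℕ} [Fact p.Prime] {r : ℕ} (O : Type) [CommRing O] [Algebra ℤ_[p] O]

/-- A matrix valued representation, as a representation on `O^r`. -/
def matrixRep (rho : GalQ →* Matrix (Fin r) (Fin r) ℤ_[p]) : GalQ →* Module.End O (Fin r → O) :=
  ((Matrix.toLinAlgEquiv' (R := O) (n := Fin r)).toMonoidHom.comp
    (algebraMap ℤ_[p] O).mapMatrix.toMonoidHom).comp rho

theorem matrixRep_apply (rho : GalQ →* Matrix (Fin r) (Fin r) ℤ_[p]) (σ : GalQ) (v : Fin r → O) :
    matrixRep O rho σ v = ((rho σ).map (algebraMap ℤ_[p] O)) *ᵥ v :=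
  rfl

theorem map_intCast_map {R S : Type*} [Ring R] [Ring S] (f : R →+* S)
    (M : Matrix (Fin r) (Fin r) ℤ) :
    (M.map (Int.cast : ℤ → R)).map f = M.map (Int.cast : ℤ → S) := by
  ext i j; simp

theorem matrixRep_isAdicContinuous [IsLocalRing O] (hp : (p : O) ∈ maximalIdeal O)
    (rho : GalQ →* Matrix (Fin r) (Fin r) ℤ_[p])
    (h : ∀ n : ℕ, ∃ L : IntermediateField ℚ (AlgebraicClosure ℚ), FiniteDimensional ℚ L ∧
      ∀ σ : GalQ, (∀ x ∈ L, σ x = x) → (rho σ).map (PadicInt.toZModPow n) = 1) :
    GaloisActionIsAdicContinuous O (matrixRep O rho) := by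
  intro n
  obtain ⟨L, hL, h1⟩ := h n
  refine ⟨L, hL, fun σ hσ v => ?_⟩
  set D : Matrix (Fin r) (Fin r) O := (rho σ - 1).map (algebraMap ℤ_[p] O) with hDdef
  have hD : ∀ i j, D i j ∈ maximalIdeal O ^ n := by
    intro i j
    refine algebraMap_mem_pow hp ?_
    have h2 := congrFun (congrFun (h1 σ hσ) i) j
    simp only [Matrix.map_apply] at h2
    rw [Matrix.sub_apply, map_sub, h2, Matrix.one_apply, Matrix.one_apply]
    split <;> simp
  have hsub : matrixRep O rho σ v - v = D *ᵥ v := by
    rw [matrixRep_apply, hDdef, Matrix.map_sub _ (map_sub _), Matrix.sub_mulVec,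
      Matrix.map_one _ (map_zero _) (map_one _), Matrix.one_mulVec]
  rw [hsub, pi_eq_sum_univ (D *ᵥ v)]
  refine Submodule.sum_mem _ fun i _ => Submodule.smul_mem_smul ?_ Submodule.mem_top
  show ∑ j, D i j * v j ∈ _
  exact Ideal.sum_mem _ fun j _ => Ideal.mul_mem_right _ _ (hD i j)

end Matrices

section Eigenspace

variable {T : Type} {r : ℕ} (H : T → Matrix (Fin r) (Fin r) ℤ)
variable {O : Type} [CommRing O] (K : Type) [Field K] [Algebra O K]

theorem compAlgebraMap_mulVec (M : Matrix (Fin r) (Fin r) ℤ) (v : Fin r → O) :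
    (M.map (Int.cast : ℤ → K)) *ᵥ (fun i => algebraMap O K (v i)) =
      fun i => algebraMap O K (((M.map (Int.cast : ℤ → O)) *ᵥ v) i) := by
  funext i
  rw [RingHom.map_mulVec, map_intCast_map]
  rfl

/-- Inclusion of `O^r` in `K^r`, linear over `O`. -/
def piAlgebraMap : (Fin r → O) →ₗ[O] (Fin r → K) :=
  LinearMap.pi fun i => (Algebra.linearMap O K).comp (LinearMap.proj i)

theorem piAlgebraMap_apply (v : Fin r → O) (i : Fin r) :
    piAlgebraMap K v i = algebraMap O K (v i) :=
  rfl

theorem piAlgebraMap_injective [IsFractionRing O K] :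
    Function.Injective (piAlgebraMap (r := r) (O := O) K) := fun _ _ h =>
  funext fun i => IsFractionRing.injective O K (congrFun h i)

theorem piAlgebraMap_mem_iff [IsFractionRing O K] (χ : T → O) (v : Fin r → O) :
    piAlgebraMap K v ∈ matEigenspace H (fun t => algebraMap O K (χ t)) ↔
      v ∈ matEigenspace H χ := by
  refine forall_congr' fun t => ?_
  have h1 := compAlgebraMap_mulVec K (H t) v
  have h2 : algebraMap O K (χ t) • piAlgebraMap K v = piAlgebraMap K (χ t • v) := by
    rw [map_smul, algebraMap_smul]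
  change (H t).map (Int.cast : ℤ → K) *ᵥ (fun i => algebraMap O K (v i)) =
    algebraMap O K (χ t) • piAlgebraMap K v ↔ _
  rw [h1, h2]
  exact (piAlgebraMap_injective (O := O) K).eq_iff

variable [IsDomain O] [IsFractionRing O K]

theorem exists_piAlgebraMap_eq_smul (w : Fin r → K) :
    ∃ a : O, a ≠ 0 ∧ ∃ v : Fin r → O, piAlgebraMap K v = a • w := by
  obtain ⟨a, ha⟩ := IsLocalization.exist_integer_multiples_of_finite (nonZeroDivisors O) w
  choose v hv using ha
  exact ⟨a, nonZeroDivisors.coe_ne_zero a, v, funext fun i => hv i⟩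

/-- The eigenspace over `K` is spanned by the one over `O`. -/
theorem span_image_matEigenspace (χ : T → O) :
    Submodule.span K (piAlgebraMap K '' (matEigenspace H χ : Set (Fin r → O))) =
      matEigenspace H (fun t => algebraMap O K (χ t)) := by
  refine le_antisymm (Submodule.span_le.mpr ?_) fun w hw => ?_
  · rintro _ ⟨v, hv, rfl⟩
    exact (piAlgebraMap_mem_iff H K χ v).mpr hv
  · obtain ⟨a, ha, v, hv⟩ := exists_piAlgebraMap_eq_smul (O := O) K w
    have hmem : v ∈ matEigenspace H χ := by
      rw [← piAlgebraMap_mem_iff H K χ v, hv, ← algebraMap_smul K a w]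
      exact Submodule.smul_mem _ _ hw
    have ha' : algebraMap O K a ≠ 0 := by
      simpa using ha
    rw [show w = (algebraMap O K a)⁻¹ • piAlgebraMap K v by
      rw [hv, ← algebraMap_smul K a w, inv_smul_smul₀ ha']]
    exact Submodule.smul_mem _ _ (Submodule.subset_span ⟨v, hmem, rfl⟩)

theorem finrank_matEigenspace [IsPrincipalIdealRing O] (χ : T → O) :
    Module.finrank O (matEigenspace H χ) =
      Module.finrank K (matEigenspace H (fun t => algebraMap O K (χ t))) := by
  let b := Module.Free.chooseBasis O (matEigenspace H χ)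
  let u : Module.Free.ChooseBasisIndex O (matEigenspace H χ) → (Fin r → K) :=
    fun i => piAlgebraMap K (b i : Fin r → O)
  have hu : LinearIndependent K u := by
    rw [← LinearIndependent.iff_fractionRing (R := O) (K := K)]
    exact (b.linearIndependent.map' (matEigenspace H χ).subtype
      (Submodule.ker_subtype _)).map' (piAlgebraMap K)
      (LinearMap.ker_eq_bot.mpr (piAlgebraMap_injective K))
  have hspan : Submodule.span K (Set.range u) =
      matEigenspace H (fun t => algebraMap O K (χ t)) := by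
    rw [← span_image_matEigenspace H K χ]
    refine le_antisymm (Submodule.span_mono ?_) (Submodule.span_le.mpr ?_)
    · rintro _ ⟨i, rfl⟩
      exact ⟨_, (b i).2, rfl⟩
    · rintro _ ⟨v, hv, rfl⟩
      have h := congrArg (fun x : ↥(matEigenspace H χ) => piAlgebraMap (O := O) K (x : Fin r → O))
        (b.sum_repr ⟨v, hv⟩)
      simp only [Submodule.coe_sum, Submodule.coe_smul, map_sum, map_smul] at h
      rw [← h]
      refine Submodule.sum_mem _ fun i _ => ?_
      rw [← algebraMap_smul K]
      exact Submodule.smul_mem _ _ (Submodule.subset_span ⟨i, rfl⟩)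
  rw [Module.finrank_eq_card_chooseBasisIndex, ← hspan, finrank_span_eq_card hu]

end Eigenspace

section Plane

variable {N : ℕ} [NeZero N] {p : ℕ} [Fact p.Prime]
variable {O : Type} [CommRing O] [IsDomain O] [IsDiscreteValuationRing O] [CharZero O]
  [Algebra ℤ_[p] O]

/-- The eigenplane lattice of a Hecke character. -/
theorem exists_galoisRepAdic_quadratic (D : TateData N p) (hp : (p : O) ∈ maximalIdeal O)
    (χ : FullHecke N →+* O) :
    ∃ P : GaloisRepAdic O,
      (∀ (ℓ : ℕ) (hℓ : ℓ.Prime) (hℓN : ¬ ℓ ∣ N), ℓ ≠ p →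
        ∀ A : ValuationSubring (AlgebraicClosure ℚ), A.LiesOverPrime ℓ →
          ∀ σ : GalQ, A.IsFrobeniusAt σ ℓ → ∀ v : P.V,
            P.ρ σ (P.ρ σ v)
              - χ (CuspForm.heckeAlgebra.T hℓ hℓN (Set.notMem_empty ℓ)) • P.ρ σ v
              + (ℓ : O) • v = 0) ∧
      (∀ q : ℕ, q.Prime → ¬ q ∣ N → q ≠ p → P.IsUnramifiedAt q) ∧
      ∀ a : O, P.ρ complexConjugation ≠ a • (1 : Module.End O P.V) := by
  have hcomm : ∀ (σ : GalQ) (t : FullHecke N),
      ((D.hecke t).map (Int.cast : ℤ → O)) * (D.rho σ).map (algebraMap ℤ_[p] O) =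
        (D.rho σ).map (algebraMap ℤ_[p] O) * ((D.hecke t).map (Int.cast : ℤ → O)) := fun σ t => by
    have h := congrArg (fun M => M.map (algebraMap ℤ_[p] O)) (D.commute σ t).eq
    simp only [Matrix.map_mul, map_intCast_map] at h
    exact h.symm
  set W : Submodule O (Fin D.r → O) := matEigenspace (fun t => D.hecke t) (fun t => χ t) with hWdef
  have hW : ∀ σ, ∀ x ∈ W, matrixRep O D.rho σ x ∈ W := by
    intro σ x hx t
    rw [matrixRep_apply, Matrix.mulVec_mulVec, hcomm σ t, ← Matrix.mulVec_mulVec, hx t,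
      Matrix.mulVec_smul]
  have hrank : Module.finrank O W = 2 := by
    rw [hWdef, finrank_matEigenspace (fun t => D.hecke t) (FractionRing O)]
    exact D.plane (FractionRing O) ((algebraMap O (FractionRing O)).comp χ)
  refine ⟨FLTA.RepTheory.galoisRepAdicOfSubmodule (matrixRep O D.rho)
    (matrixRep_isAdicContinuous O hp D.rho D.isContinuous) W hW hrank, ?_, ?_, ?_⟩
  · intro ℓ hℓ hℓN hℓp A hA σ hσ v
    change ↥W at v
    refine Subtype.ext ?_
    have h := congrArg (fun M => (M.map (algebraMap ℤ_[p] O)) *ᵥ (v : Fin D.r → O))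
      (D.frobenius ℓ hℓ hℓN hℓp A hA σ hσ)
    simp only [Matrix.map_add _ (map_add _), Matrix.map_sub _ (map_sub _), Matrix.map_mul,
      map_intCast_map, Matrix.map_natCast (map_zero (algebraMap ℤ_[p] O)), map_natCast,
      Matrix.map_zero _ (map_zero _), Matrix.add_mulVec, Matrix.sub_mulVec,
      ← Matrix.mulVec_mulVec, Matrix.zero_mulVec] at h
    have hT := hW σ _ v.2 (CuspForm.heckeAlgebra.T hℓ hℓN (Set.notMem_empty ℓ))
    rw [matrixRep_apply] at hT
    rw [hT, Matrix.diagonal_const_mulVec] at h
    exact h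
  · intro q hq hqN hqp A hA σ hσ
    refine LinearMap.ext fun v => ?_
    change ↥W at v
    refine Subtype.ext ?_
    change matrixRep O D.rho σ (v : Fin D.r → O) = _
    rw [matrixRep_apply, D.unramified q hq hqN hqp A hA σ hσ,
      Matrix.map_one _ (map_zero _) (map_one _), Matrix.one_mulVec]
    rfl
  · intro a ha
    obtain ⟨w, hw, hne⟩ := D.conj_not_scalar (FractionRing O)
      ((algebraMap O (FractionRing O)).comp χ) (algebraMap O (FractionRing O) a)
    refine hne ?_
    have hw' : w ∈ Submodule.span (FractionRing O)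
        (piAlgebraMap (FractionRing O) '' (W : Set (Fin D.r → O))) := by
      rw [hWdef, span_image_matEigenspace]
      exact hw
    refine Submodule.span_induction ?_ ?_ ?_ ?_ hw'
    · rintro _ ⟨v, hv, rfl⟩
      have h := congrArg Subtype.val (LinearMap.congr_fun ha ⟨v, hv⟩)
      change matrixRep O D.rho complexConjugation v = a • v at h
      rw [matrixRep_apply, D.conj_spec, map_intCast_map] at h
      have h' := compAlgebraMap_mulVec (O := O) (FractionRing O) D.conjMat v
      rw [h] at h'
      refine h'.trans (funext fun i => ?_)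
      simp [piAlgebraMap_apply]
    · rw [Matrix.mulVec_zero, smul_zero]
    · intro x y _ _ hx hy
      rw [Matrix.mulVec_add, hx, hy, smul_add]
    · intro c x _ hx
      rw [Matrix.mulVec_smul, hx, smul_comm]

end Plane

end FLTA.GaloisReps

end
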