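import Fermat.Agent.GaloisReps.ResidualAttach
import Fermat.Agent.EllTorsion.FiniteLevel
import Fermat.Agent.Wiring.FreyModel
import Fermat.Prelude.Def_FreyPackage_EigenformResidualAttachment

/-!
# Residual attachment along the Frey package (`EigenformResidualAttachmentAt`)
-/

set_option autoImplicit false

noncomputable section

open WeierstrassCurve WeierstrassCurve.Affine.Point Polynomial

namespace FLTA.GaloisReps

theorem exists_galois_numberField_ker_le {M₁ M₂ : Type} [MulOneClass M₁] [MulOneClass M₂]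
    {φ : GalQ →* M₁} {ψ : GalQ →* M₂} (hφ : GaloisFactorsThroughFiniteLevel φ)
    (hψ : GaloisFactorsThroughFiniteLevel ψ) :
    ∃ L : IntermediateField ℚ (AlgebraicClosure ℚ), FiniteDimensional ℚ L ∧ IsGalois ℚ L ∧
      ∀ σ : GalQ, (∀ x ∈ L, σ x = x) → φ σ = 1 ∧ ψ σ = 1 := by
  obtain ⟨L₁, h₁, h₁'⟩ := hφ
  obtain ⟨L₂, h₂, h₂'⟩ := hψ
  haveI : Normal ℚ (AlgebraicClosure ℚ) := normal_qbar
  haveI : IsGalois ℚ (AlgebraicClosure ℚ) := ⟨⟩
  haveI : FiniteDimensional ℚ ↥(L₁ ⊔ L₂) := inferInstance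
  haveI hn : Normal ℚ ↥(IntermediateField.normalClosure ℚ ↥(L₁ ⊔ L₂) (AlgebraicClosure ℚ)) :=
    normalClosure.normal ℚ _ _
  refine ⟨IntermediateField.normalClosure ℚ ↥(L₁ ⊔ L₂) (AlgebraicClosure ℚ), inferInstance,
    ⟨⟩, fun σ hσ => ?_⟩
  have hle : L₁ ⊔ L₂ ≤ IntermediateField.normalClosure ℚ ↥(L₁ ⊔ L₂) (AlgebraicClosure ℚ) :=
    (L₁ ⊔ L₂).le_normalClosure
  exact ⟨h₁' σ fun x hx => hσ x (hle (le_sup_left (a := L₁) (b := L₂) hx)),
    h₂' σ fun x hx => hσ x (hle (le_sup_right (a := L₁) (b := L₂) hx))⟩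

theorem trace_det_of_charpoly {k V : Type} [Field k] [AddCommGroup V] [Module k V]
    [Module.Finite k V] (hV : Module.finrank k V = 2) (f : Module.End k V) (a d : k)
    (h : LinearMap.charpoly f = X ^ 2 - C a * X + C d) :
    LinearMap.trace k V f = a ∧ LinearMap.det f = d := by
  constructor
  · let b := Module.finBasisOfFinrankEq k V hV
    rw [LinearMap.trace_eq_matrix_trace k b, Matrix.trace_eq_neg_charpoly_coeff,
      LinearMap.charpoly_toMatrix f b, h]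
    simp [coeff_X_pow, coeff_C]
  · rw [LinearMap.det_eq_sign_charpoly_coeff, h, hV]
    simp

theorem eigenformResidualAttachmentAt (P : FreyPackage) (M : ℕ) (hM : 0 < M) :
    P.EigenformResidualAttachmentAt M := by
  intro g hg 𝔪 hmax hp𝔪
  haveI : NeZero M := ⟨hM.ne'⟩
  haveI : Fact P.p.Prime := ⟨P.pp⟩
  letI : Field (integralClosure ℤ ℂ ⧸ 𝔪) := Ideal.Quotient.field 𝔪
  haveI : CharP (integralClosure ℤ ℂ ⧸ 𝔪) P.p := by
    refine (CharP.charP_iff_prime_eq_zero P.pp).mpr ?_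
    rw [← map_natCast (Ideal.Quotient.mk 𝔪), Ideal.Quotient.eq_zero_iff_mem]
    exact hp𝔪
  letI : Algebra (ZMod P.p) (integralClosure ℤ ℂ ⧸ 𝔪) := ZMod.algebra _ P.p
  obtain ⟨ρ, hatt, -⟩ := exists_residual_attached hg (p := P.p) (Ideal.Quotient.mk 𝔪)
  have hE := FLTA.EllTorsion.galoisFactorsThroughFiniteLevel_intModel P.freyCurveInt
    (FLTA.Wiring.freyCurveInt_Δ_ne_zero P) P.pp.ne_zero
  rw [FLTA.Wiring.freyCurveInt_map_rat] at hE
  obtain ⟨L, hLfd, hLgal, hL⟩ := exists_galois_numberField_ker_le hE ρ.factorsThroughFiniteLevel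
  haveI := hLfd
  haveI := hLgal
  have key : ∀ ℓ : ℕ, ℓ.Prime → ¬ ℓ ∣ M → ℓ ≠ P.p →
      ∀ A : ValuationSubring (AlgebraicClosure ℚ), A.LiesOverPrime ℓ →
        ∀ τ : GalQ, A.IsFrobeniusAt τ ℓ →
          ∃ a : integralClosure ℤ ℂ, (a : ℂ) = ModularFormClass.qCoeff g ℓ ∧
            LinearMap.trace _ ρ.V (ρ.ρ τ) = Ideal.Quotient.mk 𝔪 a ∧
            LinearMap.det (ρ.ρ τ) = (ℓ : integralClosure ℤ ℂ ⧸ 𝔪) := by
    intro ℓ hℓ hℓM hℓp A hA τ hτ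
    have hne : (ℓ : integralClosure ℤ ℂ ⧸ 𝔪) ≠ 0 := fun h =>
      hℓp ((Nat.prime_dvd_prime_iff_eq P.pp hℓ).mp
        ((CharP.cast_eq_zero_iff _ P.p ℓ).mp h)).symm
    obtain ⟨a, ha, hcp⟩ := hatt ℓ hℓ hℓM hne A hA τ hτ
    exact ⟨a, ha, trace_det_of_charpoly ρ.finrank_eq _ _ _ hcp⟩
  refine ⟨integralClosure ℤ ℂ ⧸ 𝔪, inferInstance, inferInstance, ρ.V, inferInstance,
    inferInstance, ρ.ρ, Ideal.Quotient.mk 𝔪, L, inferInstance, {}, inferInstance,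
    inferInstance, inferInstance, by rw [Ideal.mk_ker], ρ.finrank_eq, ?_, ?_, ?_⟩
  · intro σ hσ
    have hfix : ∀ x ∈ L, σ x = x := fun x hx => by
      have h := AlgEquiv.restrictNormal_commutes σ L ⟨x, hx⟩
      rw [show σ.restrictNormal L = 1 from hσ] at h
      exact h.symm
    exact ⟨MonoidHom.mem_ker.mpr (hL σ hfix).1, MonoidHom.mem_ker.mpr (hL σ hfix).2⟩
  · intro ℓ hℓ hℓM hℓp A hA τ hτ
    obtain ⟨a, ha, ht, -⟩ := key ℓ hℓ hℓM hℓp A hA τ hτ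
    exact ⟨a, ha, ht⟩
  · intro ℓ hℓ hℓM hℓp A hA τ hτ
    obtain ⟨a, -, -, hd⟩ := key ℓ hℓ hℓM hℓp A hA τ hτ
    exact hd

end FLTA.GaloisReps

end
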